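import Mathlib
import Fermat.Agent.SS.NodeAlg

/-!
# Program S, package SS/Loc : the local analysis at a closed point, ABSTRACT form (Mathlib only)

`O` a Noetherian local ring (in the application `P_𝔫`), `A` a discrete valuation ring with
uniformiser `ϖ` (the constants), `ι : A → O`, and `ev : O → A` a retraction of `ι` ("evaluation at an
`A`-rational horizontal point `R` centred at the closed point").

* `ssl_ker_eq` : if `𝔪_O ≤ J + (ϖ)` and `J ≤ ker ev` then `ker ev = J` (Krull intersection);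
* `ssl_ker_pair`, `ssl_ker_single` : `ker ev = (u - u(R), w - w(R))` if `𝔪_O = (ϖ, u, w)`,
  `ker ev = (z - z(R))` if `𝔪_O = (ϖ, z)`;
* `ssl_prime_eq` : a prime of `O` not containing `ϖ` and containing `ker ev` IS `ker ev`;
* `ssl_cross` : (LOC) if `u w = κ - d ρ` and `a = u(R) ≠ 0` divides `d` strictly, then
  `a · ker ev ⊆ (u - a)`;
* `ssl_cross_prime`, `ssl_smooth_prime` : the only prime of `O` not containing `ϖ` and containing
  `u - a` (resp. `z - a`) is `ker ev`;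
* `ssl_deep` : (DEEP) if for every `n` there are generators `(ϖ, u_n, w_n)` of `𝔪_O` fixed by an
  automorphism `σ` of `O` (semilinear over an automorphism of `A`) with `u_n(R), w_n(R) ∈ ϖ^n A`,
  then `σ (ker ev) ⊆ ker ev`.
-/

set_option autoImplicit false
set_option linter.unusedSectionVars false
set_option linter.unusedVariables false

namespace Fermat.Agent.SS

open IsLocalRing

section Pre

variable {A O : Type*} [CommRing A] [IsDomain A] [CommRing O] [IsLocalRing O]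
variable (ι : A →+* O) (ev : O →+* A)

/-- `x - ι (ev x) ∈ ker ev` -/
theorem ssl_sub_mem_ker (hev : ∀ a, ev (ι a) = a) (x : O) : x - ι (ev x) ∈ RingHom.ker ev := by
  rw [RingHom.mem_ker, map_sub, hev, sub_self]

/-- the kernel of a retraction onto a nonzero ring is a proper ideal, hence inside `𝔪_O` -/
theorem ssl_ker_le_max : RingHom.ker ev ≤ maximalIdeal O :=
  IsLocalRing.le_maximalIdeal (RingHom.ker_ne_top ev)

/-- `g ∈ J + (ϖ)` if `g - g(R) ∈ J` and `ϖ ∣ g(R)` -/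
theorem ssl_mem_sup_aux (ϖ : A) (J : Ideal O) (g : O) (hg : g - ι (ev g) ∈ J) (hd : ϖ ∣ ev g) :
    g ∈ J ⊔ Ideal.span {ι ϖ} := by
  obtain ⟨c, hc⟩ := hd
  have h2 : ι c * ι ϖ ∈ Ideal.span {ι ϖ} := Ideal.mem_span_singleton'.mpr ⟨ι c, rfl⟩
  have h := Submodule.add_mem_sup hg h2
  have e : g - ι (ev g) + ι c * ι ϖ = g := by rw [hc, map_mul]; ring
  rwa [e] at h

end Pre

section Ker

variable {A O : Type*} [CommRing A] [IsDomain A] [CommRing O] [IsLocalRing O] [IsNoetherianRing O]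
variable (ι : A →+* O) (ev : O →+* A)

/-- if `𝔪_O ≤ J + (ϖ)` and `J ≤ ker ev` then `ker ev = J` -/
theorem ssl_ker_eq (hev : ∀ a, ev (ι a) = a) (ϖ : A) (hϖ : ϖ ≠ 0) (J : Ideal O)
    (hJ : J ≤ RingHom.ker ev) (hmax : maximalIdeal O ≤ J ⊔ Ideal.span {ι ϖ})
    (hϖm : ι ϖ ∈ maximalIdeal O) : RingHom.ker ev = J := by
  apply le_antisymm _ hJ
  intro x hx
  have key : ∀ k : ℕ, ∃ j ∈ J, ∃ y ∈ RingHom.ker ev, x = j + y * ι ϖ ^ k := by
    intro k
    induction k with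
    | zero => exact ⟨0, J.zero_mem, x, hx, by simp⟩
    | succ k ih =>
      obtain ⟨j, hj, y, hy, hxy⟩ := ih
      have hy' : y ∈ J ⊔ Ideal.span {ι ϖ} := hmax (ssl_ker_le_max ev hy)
      obtain ⟨j', hj', d, hd, hjd⟩ := Submodule.mem_sup.mp hy'
      obtain ⟨d', rfl⟩ := Ideal.mem_span_singleton'.mp hd
      refine ⟨j + j' * ι ϖ ^ k, J.add_mem hj (J.mul_mem_right _ hj'), d', ?_, ?_⟩
      · -- `ev d' = 0`
        have h1 : ev y = 0 := hy
        have h2 : ev j' = 0 := hJ hj'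
        rw [← hjd, map_add, h2, zero_add, map_mul, hev] at h1
        rw [RingHom.mem_ker]
        exact (mul_eq_zero.mp h1).resolve_right hϖ
      · rw [hxy, ← hjd]; ring
  apply ssna_krull
  intro k
  obtain ⟨j, hj, y, -, hxy⟩ := key k
  rw [hxy]
  exact Submodule.add_mem_sup hj (Ideal.mul_mem_left _ _ (Ideal.pow_mem_pow hϖm k))

/-- `ker ev = (u - u(R), w - w(R))` if `𝔪_O = (ϖ, u, w)` -/
theorem ssl_ker_pair (hev : ∀ a, ev (ι a) = a) (ϖ : A) (hϖ : ϖ ≠ 0) (u w : O)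
    (hmax : maximalIdeal O = Ideal.span {ι ϖ, u, w})
    (hu : ϖ ∣ ev u) (hw : ϖ ∣ ev w) :
    RingHom.ker ev = Ideal.span {u - ι (ev u), w - ι (ev w)} := by
  have hϖm : ι ϖ ∈ maximalIdeal O := by
    rw [hmax]; exact Ideal.subset_span (by simp)
  apply ssl_ker_eq ι ev hev ϖ hϖ _ _ _ hϖm
  · rw [Ideal.span_le]
    rintro x hx
    simp only [Set.mem_insert_iff, Set.mem_singleton_iff] at hx
    rcases hx with rfl | rfl
    · exact ssl_sub_mem_ker ι ev hev u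
    · exact ssl_sub_mem_ker ι ev hev w
  · rw [hmax, Ideal.span_le]
    rintro x hx
    simp only [Set.mem_insert_iff, Set.mem_singleton_iff] at hx
    have hϖ' : ι ϖ ∈ Ideal.span {u - ι (ev u), w - ι (ev w)} ⊔ Ideal.span {ι ϖ} :=
      Ideal.mem_sup_right (Ideal.mem_span_singleton_self _)
    rcases hx with rfl | rfl | rfl
    · exact hϖ'
    · exact ssl_mem_sup_aux ι ev ϖ _ x (Ideal.subset_span (by simp)) hu
    · exact ssl_mem_sup_aux ι ev ϖ _ x (Ideal.subset_span (by simp)) hw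

/-- `ker ev = (z - z(R))` if `𝔪_O = (ϖ, z)` -/
theorem ssl_ker_single (hev : ∀ a, ev (ι a) = a) (ϖ : A) (hϖ : ϖ ≠ 0) (z : O)
    (hmax : maximalIdeal O = Ideal.span {ι ϖ, z}) (hz : ϖ ∣ ev z) :
    RingHom.ker ev = Ideal.span {z - ι (ev z)} := by
  have hϖm : ι ϖ ∈ maximalIdeal O := by
    rw [hmax]; exact Ideal.subset_span (by simp)
  apply ssl_ker_eq ι ev hev ϖ hϖ _ _ _ hϖm
  · rw [Ideal.span_le]
    rintro x hx
    simp only [Set.mem_singleton_iff] at hx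
    subst hx
    exact ssl_sub_mem_ker ι ev hev z
  · rw [hmax, Ideal.span_le]
    rintro x hx
    simp only [Set.mem_insert_iff, Set.mem_singleton_iff] at hx
    rcases hx with rfl | rfl
    · exact Ideal.mem_sup_right (Ideal.mem_span_singleton_self _)
    · exact ssl_mem_sup_aux ι ev ϖ _ x (Ideal.subset_span (by simp)) hz

end Ker

section Dvr

variable {A O : Type*} [CommRing A] [IsDomain A] [IsDiscreteValuationRing A]
variable [CommRing O] [IsLocalRing O] [IsNoetherianRing O]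
variable (ι : A →+* O) (ev : O →+* A)

/-- the image of a nonzero constant is not in a prime which does not contain `ϖ` -/
theorem ssl_const_not_mem (ϖ : A) (hϖ : Irreducible ϖ) (𝔮 : Ideal O) [𝔮.IsPrime]
    (h𝔮 : ι ϖ ∉ 𝔮) {a : A} (ha : a ≠ 0) : ι a ∉ 𝔮 := by
  obtain ⟨k, e, rfl⟩ := IsDiscreteValuationRing.eq_unit_mul_pow_irreducible ha hϖ
  intro hmem
  rw [map_mul, map_pow] at hmem
  rcases Ideal.IsPrime.mem_or_mem ‹_› hmem with h | h
  · exact Ideal.IsPrime.ne_top ‹_› (Ideal.eq_top_of_isUnit_mem _ h (e.isUnit.map ι))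
  · exact h𝔮 (Ideal.IsPrime.mem_of_pow_mem ‹_› _ h)

/-- a prime of `O` not containing `ϖ` and containing `ker ev` is `ker ev` -/
theorem ssl_prime_eq (hev : ∀ a, ev (ι a) = a) (ϖ : A) (hϖ : Irreducible ϖ) (𝔮 : Ideal O)
    [𝔮.IsPrime] (h𝔮 : ι ϖ ∉ 𝔮) (hle : RingHom.ker ev ≤ 𝔮) : 𝔮 = RingHom.ker ev := by
  apply le_antisymm _ hle
  intro x hx
  rw [RingHom.mem_ker]
  by_contra h0
  have h1 : ι (ev x) ∈ 𝔮 := by
    have := 𝔮.sub_mem hx (hle (ssl_sub_mem_ker ι ev hev x))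
    rwa [sub_sub_cancel] at this
  exact ssl_const_not_mem ι ϖ hϖ 𝔮 h𝔮 h0 h1

/-- (LOC) at a crossing point: `a · ker ev ⊆ (u - a)` -/
theorem ssl_cross (hev : ∀ a, ev (ι a) = a) (ϖ : A) (hϖ : Irreducible ϖ) (u w ρ : O)
    (hmax : maximalIdeal O = Ideal.span {ι ϖ, u, w}) (κ d : A)
    (hnode : u * w = ι κ - ι d * ρ) (c : A) (hc : d = ev u * c) (hcϖ : ϖ ∣ c)
    {x : O} (hx : x ∈ RingHom.ker ev) : ∃ y : O, ι (ev u) * x = (u - ι (ev u)) * y := by
  have hϖm : ι ϖ ∈ maximalIdeal O := by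
    rw [hmax]; exact Ideal.subset_span (by simp)
  have hum : u ∈ maximalIdeal O := by
    rw [hmax]; exact Ideal.subset_span (by simp)
  have hwm : w ∈ maximalIdeal O := by
    rw [hmax]; exact Ideal.subset_span (by simp)
  -- `ev u`, `ev w` are non-units of `A`
  have hnu : ∀ z ∈ maximalIdeal O, ϖ ∣ ev z := by
    intro z hz
    have h1 : ¬ IsUnit (ev z) := by
      intro h
      have h2 : ι (ev z) ∈ maximalIdeal O := by
        have := (maximalIdeal O).sub_mem hz (ssl_ker_le_max ev (ssl_sub_mem_ker ι ev hev z))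
        rwa [sub_sub_cancel] at this
      exact (IsLocalRing.mem_maximalIdeal _).mp h2 (h.map ι)
    exact (hϖ.maximalIdeal_eq ▸ (IsLocalRing.mem_maximalIdeal _).mpr h1 :
      ev z ∈ Ideal.span {ϖ}) |> Ideal.mem_span_singleton.mp
  have hker := ssl_ker_pair ι ev hev ϖ hϖ.ne_zero u w hmax (hnu u hum) (hnu w hwm)
  set a := ev u with ha
  set b := ev w with hb
  -- `ρ - ρ(R) = α (u - a) + β (w - b)`
  have hρ : ρ - ι (ev ρ) ∈ Ideal.span {u - ι a, w - ι b} := by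
    rw [← hker]; exact ssl_sub_mem_ker ι ev hev ρ
  obtain ⟨α, β, hαβ⟩ := Ideal.mem_span_pair.mp hρ
  -- the node equation at `R`
  have hnodeR : a * b = κ - d * ev ρ := by
    have := congrArg ev hnode
    simpa [map_mul, map_sub, hev] using this
  have hnodeR' : ι a * ι b = ι κ - ι d * ι (ev ρ) := by
    rw [← map_mul, hnodeR, map_sub, map_mul]
  -- helper26's identity
  have hid : (ι a + ι d * β) * (w - ι b) = -((u - ι a) * (w + ι d * α)) := by
    linear_combination hnode - hnodeR' + ι d * hαβ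
  -- `ι a + ι d β = ι a · unit`
  have hunit : IsUnit (1 + ι c * β) := by
    have hcm : ι c * β ∈ maximalIdeal O := by
      obtain ⟨c', rfl⟩ := hcϖ
      rw [map_mul, mul_assoc]
      exact Ideal.mul_mem_right _ _ hϖm
    by_contra h
    have h1 : (1 + ι c * β) ∈ maximalIdeal O := (IsLocalRing.mem_maximalIdeal _).mpr h
    have h2 := (maximalIdeal O).sub_mem h1 hcm
    rw [add_sub_cancel_right] at h2
    exact (IsLocalRing.mem_maximalIdeal _).mp h2 isUnit_one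
  obtain ⟨ε, hε⟩ := hunit
  have hfac : ι a + ι d * β = ι a * ε := by
    rw [hε, hc, map_mul]; ring
  -- it suffices to treat the two generators
  rw [hker] at hx
  obtain ⟨x₁, x₂, rfl⟩ := Ideal.mem_span_pair.mp hx
  have hw' : ι a * (w - ι b) = (u - ι a) * (-(↑ε⁻¹ : O) * (w + ι d * α)) := by
    have h5 : (ι a * ε) * (w - ι b) = -((u - ι a) * (w + ι d * α)) := by rw [← hfac]; exact hid
    calc ι a * (w - ι b) = (↑ε⁻¹ : O) * ((ι a * ε) * (w - ι b)) := by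
          rw [mul_comm (ι a) (ε : O), mul_assoc, ← mul_assoc, Units.inv_mul, one_mul]
      _ = (u - ι a) * (-(↑ε⁻¹ : O) * (w + ι d * α)) := by rw [h5]; ring
  refine ⟨x₁ * ι a + x₂ * (-(↑ε⁻¹ : O) * (w + ι d * α)), ?_⟩
  have : ι a * (x₁ * (u - ι a) + x₂ * (w - ι b)) =
      x₁ * ι a * (u - ι a) + x₂ * (ι a * (w - ι b)) := by ring
  rw [this, hw']; ring

/-- (LOC) at a crossing point: the only prime of `O` not containing `ϖ` and containing `u - a`
is `ker ev`. -/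
theorem ssl_cross_prime (hev : ∀ a, ev (ι a) = a) (ϖ : A) (hϖ : Irreducible ϖ) (u w ρ : O)
    (hmax : maximalIdeal O = Ideal.span {ι ϖ, u, w}) (κ d : A)
    (hnode : u * w = ι κ - ι d * ρ) (ha0 : ev u ≠ 0) (c : A) (hc : d = ev u * c) (hcϖ : ϖ ∣ c)
    (𝔮 : Ideal O) [𝔮.IsPrime] (h𝔮 : ι ϖ ∉ 𝔮) (hmem : u - ι (ev u) ∈ 𝔮) :
    𝔮 = RingHom.ker ev := by
  apply ssl_prime_eq ι ev hev ϖ hϖ 𝔮 h𝔮
  intro x hx
  obtain ⟨y, hy⟩ := ssl_cross ι ev hev ϖ hϖ u w ρ hmax κ d hnode c hc hcϖ hx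
  have h1 : ι (ev u) * x ∈ 𝔮 := by rw [hy]; exact 𝔮.mul_mem_right _ hmem
  exact (Ideal.IsPrime.mem_or_mem ‹_› h1).resolve_left (ssl_const_not_mem ι ϖ hϖ 𝔮 h𝔮 ha0)

/-- (LOC) at a smooth point: the only prime of `O` not containing `ϖ` and containing `z - a`
is `ker ev`. -/
theorem ssl_smooth_prime (hev : ∀ a, ev (ι a) = a) (ϖ : A) (hϖ : Irreducible ϖ) (z : O)
    (hmax : maximalIdeal O = Ideal.span {ι ϖ, z}) (hz : ϖ ∣ ev z)
    (𝔮 : Ideal O) [𝔮.IsPrime] (h𝔮 : ι ϖ ∉ 𝔮) (hmem : z - ι (ev z) ∈ 𝔮) :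
    𝔮 = RingHom.ker ev := by
  apply ssl_prime_eq ι ev hev ϖ hϖ 𝔮 h𝔮
  rw [ssl_ker_single ι ev hev ϖ hϖ.ne_zero z hmax hz, Ideal.span_le, Set.singleton_subset_iff]
  exact hmem

end Dvr

section Deep

variable {A O : Type*} [CommRing A] [IsDomain A] [IsDiscreteValuationRing A]
variable [CommRing O] [IsLocalRing O]
variable (ι : A →+* O) (ev : O →+* A)

/-- `O = ι A + (u, w) + ϖ^m O` if `𝔪_O = (ϖ, u, w)` -/
theorem ssl_decomp (hev : ∀ a, ev (ι a) = a) (ϖ : A) (u w : O)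
    (hmax : maximalIdeal O = Ideal.span {ι ϖ, u, w}) (m : ℕ) (x : O) :
    ∃ (c : A) (α β γ : O), x = ι c + α * u + β * w + γ * ι ϖ ^ m := by
  induction m generalizing x with
  | zero => exact ⟨0, 0, 0, x, by simp⟩
  | succ m ih =>
    have h1 : x - ι (ev x) ∈ maximalIdeal O := ssl_ker_le_max ev (ssl_sub_mem_ker ι ev hev x)
    rw [hmax] at h1
    obtain ⟨γ₀, hγ⟩ := Ideal.mem_span_insert.mp h1
    obtain ⟨z, hz, hγz⟩ := hγ
    obtain ⟨α₀, β₀, rfl⟩ := Ideal.mem_span_pair.mp hz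
    obtain ⟨c, α, β, γ, hγ₀⟩ := ih γ₀
    refine ⟨ev x + c * ϖ, α₀ + α * ι ϖ, β₀ + β * ι ϖ, γ, ?_⟩
    rw [map_add, map_mul]
    linear_combination hγz + ι ϖ * hγ₀

/-- (DEEP) generators `(ϖ, u_n, w_n)` of `𝔪_O`, fixed by `σ`, with `u_n(R), w_n(R) ∈ ϖ^n A` for all
`n` : then `σ (ker ev) ⊆ ker ev`. -/
theorem ssl_deep (hev : ∀ a, ev (ι a) = a) (ϖ : A) (hϖ : Irreducible ϖ) (u w : ℕ → O)
    (hmax : ∀ n, maximalIdeal O = Ideal.span {ι ϖ, u n, w n})
    (hu : ∀ n, ϖ ^ n ∣ ev (u n)) (hw : ∀ n, ϖ ^ n ∣ ev (w n))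
    (σ : O →+* O) (σA : A →+* A) (hσι : ∀ a, σ (ι a) = ι (σA a)) (hσϖ : ϖ ∣ σA ϖ)
    (hσu : ∀ n, σ (u n) = u n) (hσw : ∀ n, σ (w n) = w n)
    {x : O} (hx : ev x = 0) : ev (σ x) = 0 := by
  -- `ev (σ x) ∈ ϖ^m A` for every `m`
  have key : ∀ m : ℕ, ϖ ^ m ∣ ev (σ x) := by
    intro m
    obtain ⟨c, α, β, γ, hxd⟩ := ssl_decomp ι ev hev ϖ (u m) (w m) (hmax m) m x
    have h1 : ϖ ^ m ∣ c := by
      have h2 : ev x = c + ev α * ev (u m) + ev β * ev (w m) + ev γ * ϖ ^ m := by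
        rw [hxd]; simp only [map_add, map_mul, map_pow, hev]
      rw [hx] at h2
      have h3 : c = -(ev α * ev (u m) + ev β * ev (w m) + ev γ * ϖ ^ m) := by
        linear_combination -h2
      rw [h3]
      exact (dvd_neg.mpr (dvd_add (dvd_add (Dvd.dvd.mul_left (hu m) _)
        (Dvd.dvd.mul_left (hw m) _)) (Dvd.dvd.mul_left dvd_rfl _)))
    have h4 : ev (σ x) = σA c + ev (σ α) * ev (u m) + ev (σ β) * ev (w m) +
        ev (σ γ) * σA ϖ ^ m := by
      rw [hxd]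
      simp only [map_add, map_mul, map_pow, hσι, hσu, hσw, hev]
    rw [h4]
    refine dvd_add (dvd_add (dvd_add ?_ (Dvd.dvd.mul_left (hu m) _))
      (Dvd.dvd.mul_left (hw m) _)) (Dvd.dvd.mul_left (pow_dvd_pow_of_dvd hσϖ m) _)
    obtain ⟨c', rfl⟩ := h1
    rw [map_mul, map_pow]
    exact Dvd.dvd.mul_right (pow_dvd_pow_of_dvd hσϖ m) _
  -- Krull intersection in the DVR `A`
  by_contra h0
  obtain ⟨k, e, hke⟩ := IsDiscreteValuationRing.eq_unit_mul_pow_irreducible h0 hϖ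
  have h5 := key (k + 1)
  rw [hke] at h5
  have h6 : ϖ ^ (k + 1) ∣ ϖ ^ k := by
    have h7 : ϖ ^ k = (↑e⁻¹ : A) * (↑e * ϖ ^ k) := by
      rw [← mul_assoc, Units.inv_mul, one_mul]
    rw [h7]
    exact Dvd.dvd.mul_left h5 _
  have h8 := (pow_dvd_pow_iff hϖ.ne_zero hϖ.not_isUnit).mp h6
  omega

end Deep

end Fermat.Agent.SS
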