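import Mathlib
import Fermat.Agent.S18.T.Spec
import Fermat.Agent.SS.Loc.Abs

/-!
# Program S, package SS/Loc : the local ring `P_𝔫` of the chart ring `P = s18tInt A t` at a prime `𝔫`,
as a subring of `F`

Setting of S18 package T : `A` a DVR of characteristic `0`, `L = Frac A`, `F / L(t)` finite,
`P = s18tInt A t`.

* `SsInLoc t 𝔫 x` : `x ∈ P_𝔫` (`s x ∈ P` for some `s ∈ P ∖ 𝔫`);
* `SsInMax t 𝔫 x` : `x ∈ 𝔫 P_𝔫`;
* `ssLocRing t 𝔫` : `P_𝔫 ⊂ F` as a `Subring F`; it is the localisation of `P` at `𝔫`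
  (`ssl_isLocalization`), a Noetherian local ring (`ssl_isLocalRing`, `ssl_isNoetherianRing`) with
  maximal ideal `{x | SsInMax t 𝔫 x}` (`ssl_mem_maximalIdeal`).
-/

set_option autoImplicit false
set_option linter.unusedSectionVars false
set_option linter.unusedVariables false

noncomputable section

namespace Fermat.Agent.SS

open Polynomial IntermediateField Fermat.Agent.S18 IsLocalRing

universe u

variable {A : Type*} [CommRing A] [IsDomain A] [IsDiscreteValuationRing A] [CharZero A]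
variable {L : Type*} [Field L] [Algebra A L] [IsFractionRing A L]
variable {F : Type u} [Field F] [Algebra A F] [Algebra L F] [IsScalarTower A L F]

/-- `x ∈ P_𝔫` : there is `s ∈ P ∖ 𝔫` with `s x ∈ P`. -/
def SsInLoc (t : F) (𝔫 : Ideal ↥(s18tInt A t)) (x : F) : Prop :=
  ∃ s : ↥(s18tInt A t), s ∉ 𝔫 ∧ (s : F) * x ∈ s18tInt A t

/-- `x ∈ 𝔫 P_𝔫` : there is `s ∈ P ∖ 𝔫` with `s x ∈ 𝔫`. -/
def SsInMax (t : F) (𝔫 : Ideal ↥(s18tInt A t)) (x : F) : Prop :=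
  ∃ s : ↥(s18tInt A t), s ∉ 𝔫 ∧ ∃ p : ↥(s18tInt A t), p ∈ 𝔫 ∧ (s : F) * x = p

theorem SsInMax.inLoc {t : F} {𝔫 : Ideal ↥(s18tInt A t)} {x : F} (h : SsInMax t 𝔫 x) :
    SsInLoc t 𝔫 x := by
  obtain ⟨s, hs, p, -, hp⟩ := h
  exact ⟨s, hs, by rw [hp]; exact p.2⟩

theorem ssl_inLoc_of_mem {t : F} {𝔫 : Ideal ↥(s18tInt A t)} (h𝔫 : 𝔫 ≠ ⊤) {x : F}
    (hx : x ∈ s18tInt A t) : SsInLoc t 𝔫 x :=
  ⟨1, fun h => h𝔫 ((Ideal.eq_top_iff_one _).mpr h), by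
    rw [OneMemClass.coe_one, one_mul]; exact hx⟩

/-- `P_𝔫` as a subring of `F`. -/
def ssLocRing (t : F) (𝔫 : Ideal ↥(s18tInt A t)) [h𝔫 : 𝔫.IsPrime] : Subring F where
  carrier := {x | SsInLoc t 𝔫 x}
  mul_mem' := by
    rintro x y ⟨s, hs, hx⟩ ⟨s', hs', hy⟩
    refine ⟨s * s', fun h => (h𝔫.mem_or_mem h).elim hs hs', ?_⟩
    have e : ((s * s' : ↥(s18tInt A t)) : F) * (x * y) = ((s : F) * x) * ((s' : F) * y) := by
      push_cast; ring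
    rw [e]
    exact Subring.mul_mem _ hx hy
  one_mem' := ssl_inLoc_of_mem h𝔫.ne_top (Subring.one_mem _)
  add_mem' := by
    rintro x y ⟨s, hs, hx⟩ ⟨s', hs', hy⟩
    refine ⟨s * s', fun h => (h𝔫.mem_or_mem h).elim hs hs', ?_⟩
    have e : ((s * s' : ↥(s18tInt A t)) : F) * (x + y) =
        (s' : F) * ((s : F) * x) + (s : F) * ((s' : F) * y) := by
      push_cast; ring
    rw [e]
    exact Subring.add_mem _ (Subring.mul_mem _ s'.2 hx) (Subring.mul_mem _ s.2 hy)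
  zero_mem' := ssl_inLoc_of_mem h𝔫.ne_top (Subring.zero_mem _)
  neg_mem' := by
    rintro x ⟨s, hs, hx⟩
    exact ⟨s, hs, by rw [mul_neg]; exact Subring.neg_mem _ hx⟩

section Loc

variable (t : F) (𝔫 : Ideal ↥(s18tInt A t)) [h𝔫 : 𝔫.IsPrime]

theorem mem_ssLocRing {x : F} : x ∈ ssLocRing t 𝔫 ↔ SsInLoc t 𝔫 x := Iff.rfl

theorem ssl_int_le_locRing : s18tInt A t ≤ ssLocRing t 𝔫 :=
  fun _ hx => ssl_inLoc_of_mem h𝔫.ne_top hx

/-- the structure map `P → P_𝔫` -/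
def sslIncl : ↥(s18tInt A t) →+* ↥(ssLocRing t 𝔫) :=
  Subring.inclusion (ssl_int_le_locRing t 𝔫)

instance sslAlgebra : Algebra ↥(s18tInt A t) ↥(ssLocRing t 𝔫) := (sslIncl t 𝔫).toAlgebra

theorem sslAlgebra_coe (p : ↥(s18tInt A t)) :
    ((algebraMap ↥(s18tInt A t) ↥(ssLocRing t 𝔫) p : ↥(ssLocRing t 𝔫)) : F) = (p : F) := rfl

/-- an element of `P ∖ 𝔫` is a unit of `P_𝔫` -/
theorem ssl_isUnit_of_not_mem {s : ↥(s18tInt A t)} (hs : s ∉ 𝔫) :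
    IsUnit (algebraMap ↥(s18tInt A t) ↥(ssLocRing t 𝔫) s) := by
  have hs0 : (s : F) ≠ 0 := fun h => hs (by
    have : s = 0 := Subtype.ext h
    rw [this]; exact 𝔫.zero_mem)
  have hinv : (s : F)⁻¹ ∈ ssLocRing t 𝔫 :=
    ⟨s, hs, by rw [mul_inv_cancel₀ hs0]; exact Subring.one_mem _⟩
  refine isUnit_iff_exists_inv.mpr ⟨⟨(s : F)⁻¹, hinv⟩, Subtype.ext ?_⟩
  show (s : F) * (s : F)⁻¹ = 1
  exact mul_inv_cancel₀ hs0

/-- `P_𝔫` is the localisation of `P` at `𝔫`. -/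
instance ssl_isLocalization : IsLocalization.AtPrime ↥(ssLocRing t 𝔫) 𝔫 := by
  refine (isLocalization_iff _ _).mpr ⟨fun y => ssl_isUnit_of_not_mem t 𝔫 y.2, ?_, ?_⟩
  · rintro ⟨x, s, hs, hx⟩
    refine ⟨(⟨(s : F) * x, hx⟩, ⟨s, hs⟩), Subtype.ext ?_⟩
    show x * (s : F) = (s : F) * x
    ring
  · intro x y hxy
    refine ⟨1, ?_⟩
    have h : (x : F) = (y : F) := congrArg (fun z : ↥(ssLocRing t 𝔫) => (z : F)) hxy
    have : x = y := Subtype.ext h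
    rw [this]

instance ssl_isLocalRing : IsLocalRing ↥(ssLocRing t 𝔫) :=
  IsLocalization.AtPrime.isLocalRing ↥(ssLocRing t 𝔫) 𝔫

instance ssl_isDomain : IsDomain ↥(ssLocRing t 𝔫) := inferInstance

/-- membership in the maximal ideal of `P_𝔫` -/
theorem ssl_mem_maximalIdeal (x : ↥(ssLocRing t 𝔫)) :
    x ∈ maximalIdeal ↥(ssLocRing t 𝔫) ↔ SsInMax t 𝔫 (x : F) := by
  rw [← IsLocalization.AtPrime.map_eq_maximalIdeal 𝔫 ↥(ssLocRing t 𝔫)]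
  constructor
  · intro hx
    obtain ⟨⟨⟨p, hp⟩, s⟩, hps⟩ := (IsLocalization.mem_map_algebraMap_iff 𝔫.primeCompl _).mp hx
    refine ⟨s, s.2, p, hp, ?_⟩
    have h : (x : F) * ((s : ↥(s18tInt A t)) : F) = (p : F) :=
      congrArg (fun z : ↥(ssLocRing t 𝔫) => (z : F)) hps
    rw [mul_comm]
    exact h
  · rintro ⟨s, hs, p, hp, hsp⟩
    refine (IsLocalization.mem_map_algebraMap_iff 𝔫.primeCompl _).mpr ⟨⟨⟨p, hp⟩, ⟨s, hs⟩⟩, ?_⟩
    apply Subtype.ext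
    show (x : F) * (s : F) = (p : F)
    rw [mul_comm]; exact hsp

end Loc

end Fermat.Agent.SS
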