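import Mathlib
import Fermat.Agent.S18.T.Spec
import Fermat.Agent.S18.RH.W
import Fermat.Agent.S18.RH.Core
import Fermat.Agent.S24.PlaceOrd
import Fermat.Agent.SS.Loc.Ring

/-!
# Program S, package SS/Loc : places of `F / L` centred in a maximal ideal `𝔫 ∋ ϖ` of `P`

* `SsCentred t 𝔫 V` : `P ⊆ V` and the centre `P ∩ 𝔪_V` is contained in `𝔫`;
* `SslRational L V` : the residue field of `V` is `L`;
* `sslCentre` : the centre of `V` on `P_𝔫` (a prime ideal not containing `ϖ`);
* `sslEv` : for a rational place `R` centred in `𝔫`, the evaluation `P_𝔫 → A`, a retraction of the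
  constants `sslConst : A → P_𝔫`, with kernel the centre of `R`.
-/

set_option autoImplicit false
set_option linter.unusedSectionVars false
set_option linter.unusedVariables false
set_option linter.style.haveILetI false

noncomputable section

namespace Fermat.Agent.SS

open Polynomial IntermediateField Fermat.Agent.S18 IsLocalRing

universe u

variable {A : Type*} [CommRing A] [IsDomain A] [IsDiscreteValuationRing A] [CharZero A]
variable {L : Type*} [Field L] [Algebra A L] [IsFractionRing A L]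
variable {F : Type u} [Field F] [Algebra A F] [Algebra L F] [IsScalarTower A L F]
variable {ϖ : A}

/-- the chart ring `P` is noetherian -/
theorem ssl_int_isNoetherianRing (t : F) (ht : Transcendental L t) [FiniteDimensional L⟮t⟯ F] :
    IsNoetherianRing ↥(s18tInt A t) := by
  have htA : Transcendental A t := s18tb_transcendental ht
  haveI : IsIntegrallyClosed ↥(s18tChart A t) :=
    IsIntegrallyClosed.of_equiv (s18tlgE t htA).toRingEquiv
  haveI : IsNoetherianRing ↥(s18tChart A t) :=
    isNoetherianRing_of_ringEquiv A[X] (s18tlgE t htA).toRingEquiv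
  letI : Algebra ↥(s18tChart A t) ↥L⟮t⟯ := (s18tlgChartToK0 L t).toAlgebra
  haveI : IsScalarTower ↥(s18tChart A t) ↥L⟮t⟯ F := IsScalarTower.of_algebraMap_eq (fun _ => rfl)
  haveI : IsFractionRing ↥(s18tChart A t) ↥L⟮t⟯ := s18tlg_isFractionRing ht
  haveI : CharZero L := charZero_of_injective_algebraMap (IsFractionRing.injective A L)
  haveI : CharZero ↥L⟮t⟯ := charZero_of_injective_algebraMap (algebraMap L ↥L⟮t⟯).injective
  haveI : Module.Finite ↥(s18tChart A t) ↥(integralClosure ↥(s18tChart A t) F) :=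
    IsIntegralClosure.finite ↥(s18tChart A t) ↥L⟮t⟯ F ↥(integralClosure ↥(s18tChart A t) F)
  haveI : IsNoetherian ↥(s18tChart A t) ↥(integralClosure ↥(s18tChart A t) F) :=
    isNoetherian_of_isNoetherianRing_of_finite _ _
  have h1 : IsNoetherianRing ↥(integralClosure ↥(s18tChart A t) F) :=
    isNoetherian_of_tower ↥(s18tChart A t) inferInstance
  let e : ↥(integralClosure ↥(s18tChart A t) F) ≃+* ↥(s18tInt A t) :=
    { toFun := fun x => ⟨x.1, x.2⟩
      invFun := fun x => ⟨x.1, x.2⟩
      left_inv := fun x => rfl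
      right_inv := fun x => rfl
      map_mul' := fun x y => rfl
      map_add' := fun x y => rfl }
  exact isNoetherianRing_of_ringEquiv _ e

/-- `P_𝔫` is noetherian -/
theorem ssl_locRing_isNoetherianRing (t : F) (ht : Transcendental L t) [FiniteDimensional L⟮t⟯ F]
    (𝔫 : Ideal ↥(s18tInt A t)) [𝔫.IsPrime] : IsNoetherianRing ↥(ssLocRing t 𝔫) :=
  IsLocalization.isNoetherianRing 𝔫.primeCompl _ (ssl_int_isNoetherianRing (L := L) t ht)

/-- the place `V` is centred in `𝔫` : `P ⊆ V` and `P ∩ 𝔪_V ⊆ 𝔫`. -/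
def SsCentred (t : F) (𝔫 : Ideal ↥(s18tInt A t)) (V : ValuationSubring F) : Prop :=
  s18tInt A t ≤ V.toSubring ∧ ∀ p : ↥(s18tInt A t), V.valuation (p : F) < 1 → p ∈ 𝔫

/-- the residue field of `V` is `L`. -/
def SslRational (L : Type*) {F : Type*} [Field L] [Field F] [Algebra L F]
    (V : ValuationSubring F) : Prop :=
  ∀ x ∈ V, ∃ c : L, V.valuation (x - algebraMap L F c) < 1

/-- a nonzero constant has valuation one at a place -/
theorem ssl_val_const {V : ValuationSubring F} (hV : S18IsPlace L V) {c : L} (hc : c ≠ 0) :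
    V.valuation (algebraMap L F c) = 1 := by
  have h1 : V.valuation (algebraMap L F c) ≤ 1 := (V.valuation_le_one_iff _).mpr (hV.2 c)
  have h2 : V.valuation (algebraMap L F c⁻¹) ≤ 1 := (V.valuation_le_one_iff _).mpr (hV.2 c⁻¹)
  have h3 : V.valuation (algebraMap L F c) * V.valuation (algebraMap L F c⁻¹) = 1 := by
    rw [← map_mul, ← map_mul, mul_inv_cancel₀ hc, map_one, map_one]
  apply le_antisymm h1
  by_contra h
  push Not at h
  have h4 : V.valuation (algebraMap L F c) * V.valuation (algebraMap L F c⁻¹) < 1 :=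
    mul_lt_one_of_lt_of_le h h2
  rw [h3] at h4
  exact lt_irrefl _ h4

/-- a nonzero constant of `A` has valuation one at a place -/
theorem ssl_val_constA {V : ValuationSubring F} (hV : S18IsPlace L V) {a : A} (ha : a ≠ 0) :
    V.valuation (algebraMap A F a) = 1 := by
  rw [IsScalarTower.algebraMap_apply A L F]
  exact ssl_val_const hV ((map_ne_zero_iff _ (IsFractionRing.injective A L)).mpr ha)

theorem ssl_algebraMap_injective (A L F : Type*) [CommRing A] [Field L] [Algebra A L]
    [IsFractionRing A L] [Field F] [Algebra A F] [Algebra L F] [IsScalarTower A L F] :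
    Function.Injective (algebraMap A F) := by
  rw [IsScalarTower.algebraMap_eq A L F]
  exact (algebraMap L F).injective.comp (IsFractionRing.injective A L)

section Centre

variable (t : F) (𝔫 : Ideal ↥(s18tInt A t)) [h𝔫 : 𝔫.IsPrime]
variable {V : ValuationSubring F}

/-- `P_𝔫 ⊆ V` for a place centred in `𝔫` -/
theorem ssl_locRing_le (hV : SsCentred t 𝔫 V) : ssLocRing t 𝔫 ≤ V.toSubring := by
  rintro x ⟨s, hs, hx⟩
  have h1 : V.valuation (s : F) = 1 := by
    apply le_antisymm ((V.valuation_le_one_iff _).mpr (hV.1 s.2))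
    by_contra h
    push Not at h
    exact hs (hV.2 s h)
  have h2 : V.valuation ((s : F) * x) ≤ 1 := (V.valuation_le_one_iff _).mpr (hV.1 hx)
  rw [map_mul, h1, one_mul] at h2
  exact (V.valuation_le_one_iff _).mp h2

/-- the centre of `V` on `P_𝔫` -/
def sslCentre (hV : SsCentred t 𝔫 V) : Ideal ↥(ssLocRing t 𝔫) :=
  (maximalIdeal V).comap (Subring.inclusion (ssl_locRing_le t 𝔫 hV))

instance sslCentre_isPrime (hV : SsCentred t 𝔫 V) : (sslCentre t 𝔫 hV).IsPrime :=
  Ideal.comap_isPrime _ _

theorem mem_sslCentre (hV : SsCentred t 𝔫 V) (x : ↥(ssLocRing t 𝔫)) :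
    x ∈ sslCentre t 𝔫 hV ↔ V.valuation (x : F) < 1 := by
  rw [sslCentre, Ideal.mem_comap, V.valuation_lt_one_iff]
  rfl

/-- the constants `A → P_𝔫` -/
def sslConst : A →+* ↥(ssLocRing t 𝔫) where
  toFun a := ⟨algebraMap A F a, ssl_int_le_locRing t 𝔫 (s18tc_algebraMap_mem_int t a)⟩
  map_one' := Subtype.ext (map_one _)
  map_mul' a b := Subtype.ext (map_mul _ a b)
  map_zero' := Subtype.ext (map_zero _)
  map_add' a b := Subtype.ext (map_add _ a b)

@[simp] theorem sslConst_coe (a : A) : ((sslConst t 𝔫 a : ↥(ssLocRing t 𝔫)) : F) = algebraMap A F a :=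
  rfl

/-- `ϖ` is not in the centre of a place -/
theorem ssl_const_not_mem_centre (hVp : S18IsPlace L V) (hV : SsCentred t 𝔫 V) {a : A}
    (ha : a ≠ 0) : sslConst t 𝔫 a ∉ sslCentre t 𝔫 hV := by
  rw [mem_sslCentre, sslConst_coe, ssl_val_constA hVp ha]
  exact lt_irrefl _

/-- `ϖ ∈ 𝔫 P_𝔫` -/
theorem ssl_const_mem_max {a : A}
    (ha : (⟨algebraMap A F a, s18tc_algebraMap_mem_int t a⟩ : ↥(s18tInt A t)) ∈ 𝔫) :
    sslConst t 𝔫 a ∈ maximalIdeal ↥(ssLocRing t 𝔫) := by
  rw [ssl_mem_maximalIdeal]
  exact ⟨1, fun h => h𝔫.ne_top ((Ideal.eq_top_iff_one _).mpr h), _, ha, by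
    rw [OneMemClass.coe_one, one_mul]; rfl⟩

end Centre

end Fermat.Agent.SS
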