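import Mathlib
import Fermat.Agent.S24.PlacesInt
import Fermat.Agent.S24.PlacesDict
import Fermat.Agent.S24.PlacesResidue
import Fermat.Agent.SS.Loc.Place

/-!
# Program S, package SS/Loc : a place of `F / L` containing the chart ring `P` is determined by its
centre on `P`

`ssl_place_eq_of_centre` : two places `V, V' ⊇ P = s18tInt A t` of `F / L` with the same centre on `P`
are equal.  (Both are attached to height one primes of the Dedekind domain `intRing L t`, the integral
closure of `L[t]` in `F` (S24); every element of `intRing L t` has a nonzero multiple by a constant of `A`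
in `P`.)
-/

set_option autoImplicit false
set_option linter.unusedSectionVars false
set_option linter.unusedVariables false
set_option linter.style.haveILetI false

noncomputable section

namespace Fermat.Agent.SS

open Polynomial IntermediateField Fermat.Agent.S18 Fermat.Agent.S24 IsLocalRing AlgebraicCurve
open IsDedekindDomain

universe u

variable {A : Type*} [CommRing A] [IsDomain A] [IsDiscreteValuationRing A] [CharZero A]
variable {L : Type*} [Field L] [Algebra A L] [IsFractionRing A L]
variable {F : Type u} [Field F] [Algebra A F] [Algebra L F] [IsScalarTower A L F]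

/-- integrality over `K[t] = Algebra.adjoin K {t}` gives a monic polynomial over `K[X]`. -/
theorem ssl_isIntegralElem_aeval {K F : Type*} [Field K] [Field F] [Algebra K F] (t x : F)
    (hx : IsIntegral (Algebra.adjoin K {t}) x) :
    ((Polynomial.aeval t : K[X] →ₐ[K] F) : K[X] →+* F).IsIntegralElem x := by
  obtain ⟨p, hp, hpx⟩ := hx
  let φ : K[X] →+* Algebra.adjoin K {t} :=
    ((Polynomial.aeval t : K[X] →ₐ[K] F) : K[X] →+* F).codRestrict
      (Algebra.adjoin K {t}).toSubring (fun g => by
        show Polynomial.aeval t g ∈ Algebra.adjoin K {t}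
        rw [Algebra.adjoin_singleton_eq_range_aeval]
        exact ⟨g, rfl⟩)
  have hφ : Function.Surjective φ := by
    rintro ⟨y, hy⟩
    rw [Algebra.adjoin_singleton_eq_range_aeval] at hy
    obtain ⟨g, rfl⟩ := hy
    exact ⟨g, rfl⟩
  have hlift : p ∈ Polynomial.lifts φ := by
    rw [Polynomial.lifts_iff_coeff_lifts]
    intro n
    exact hφ _
  obtain ⟨q, hq, -, hqm⟩ := Polynomial.lifts_and_natDegree_eq_and_monic hlift hp
  refine ⟨q, hqm, ?_⟩
  have hcomp : ((Polynomial.aeval t : K[X] →ₐ[K] F) : K[X] →+* F) =
      (algebraMap (Algebra.adjoin K {t}) F).comp φ := by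
    ext g <;> rfl
  rw [hcomp, ← Polynomial.eval₂_map, hq]
  exact hpx

/-- SCALING INTO THE CHART RING : an element of `F` integral over `L[t]` becomes integral over
`A[t]` after multiplication by a nonzero constant of `A`. -/
theorem ssl_exists_scale (t x : F) (hx : IsIntegral (Algebra.adjoin L {t}) x) :
    ∃ a : A, a ≠ 0 ∧ algebraMap A F a * x ∈ s18tInt A t := by
  have hx' := ssl_isIntegralElem_aeval (K := L) t x hx
  letI alg1 : Algebra A[X] F := ((Polynomial.aeval t : A[X] →ₐ[A] F) : A[X] →+* F).toAlgebra
  letI alg2 : Algebra L[X] F := ((Polynomial.aeval t : L[X] →ₐ[L] F) : L[X] →+* F).toAlgebra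
  letI alg3 : Algebra A[X] L[X] := Polynomial.algebra A L
  haveI : IsScalarTower A[X] L[X] F := by
    refine IsScalarTower.of_algebraMap_eq (fun g => ?_)
    show Polynomial.aeval t g = Polynomial.aeval t (Polynomial.map (algebraMap A L) g)
    rw [Polynomial.aeval_map_algebraMap]
  haveI : IsLocalization ((nonZeroDivisors A).map (Polynomial.C : A →+* A[X])) L[X] :=
    Polynomial.isLocalization (nonZeroDivisors A) L
  have hx'' : IsIntegral L[X] x := hx'
  obtain ⟨⟨m, hm⟩, hmx⟩ := IsIntegral.exists_multiple_integral_of_isLocalization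
    ((nonZeroDivisors A).map (Polynomial.C : A →+* A[X])) x hx''
  obtain ⟨a, ha, rfl⟩ := hm
  refine ⟨a, nonZeroDivisors.ne_zero ha, ?_⟩
  have h1 : (⟨Polynomial.C a, ⟨a, ha, rfl⟩⟩ :
      ((nonZeroDivisors A).map (Polynomial.C : A →+* A[X]))) • x = algebraMap A F a * x := by
    rw [Submonoid.smul_def, Algebra.smul_def]
    congr 1
    show Polynomial.aeval t (Polynomial.C a) = _
    rw [Polynomial.aeval_C]
  rw [h1] at hmx
  -- integral over `A[X]` (through `aeval t`) ⟹ integral over `A[t]`
  rw [mem_s18tInt]
  obtain ⟨p, hp, hpx⟩ := hmx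
  refine ⟨p.map ((Polynomial.aeval t : A[X] →ₐ[A] F).toRingHom.codRestrict
      (s18tChart A t).toSubring (fun g => s18tb_aeval_mem_chart t g)), hp.map _, ?_⟩
  rw [Polynomial.eval₂_map]
  exact hpx

section Main

variable (t : F) (ht : Transcendental L t) [FiniteDimensional L⟮t⟯ F]

omit [IsScalarTower A L F] [IsFractionRing A L] [Algebra A L] [Algebra A F] in
include ht in
/-- `t` is a separating transcendental generator -/
theorem ssl_isSepGen [CharZero L] : IsSepGen L t := by
  haveI : CharZero ↥L⟮t⟯ := charZero_of_injective_algebraMap (algebraMap L ↥L⟮t⟯).injective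
  exact ⟨ht, inferInstance, inferInstance⟩

include ht in
/-- a place of `F / L` containing `P` is determined by its centre on `P` -/
theorem ssl_place_eq_of_centre {V V' : ValuationSubring F} (hV : S18IsPlace L V)
    (hV' : S18IsPlace L V') (hPV : s18tInt A t ≤ V.toSubring) (hPV' : s18tInt A t ≤ V'.toSubring)
    (hc : ∀ p : ↥(s18tInt A t), V.valuation (p : F) < 1 ↔ V'.valuation (p : F) < 1) : V = V' := by
  haveI : CharZero L := charZero_of_injective_algebraMap (IsFractionRing.injective A L)
  have hsep : IsSepGen L t := ssl_isSepGen t ht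
  haveI : Fact (IsSepGen L t) := ⟨hsep⟩
  haveI : IsDedekindDomain (intRing L t) := intRing_isDedekindDomain hsep
  haveI : IsFractionRing (intRing L t) F := intRing_isFractionRing hsep
  obtain ⟨P₀, rfl⟩ := s18r_exists_place t ht V hV
  obtain ⟨P₀', rfl⟩ := s18r_exists_place t ht V' hV'
  have htV : t ∈ P₀.toValuationSubring := hPV (s18tc_self_mem_int t)
  have htV' : t ∈ P₀'.toValuationSubring := hPV' (s18tc_self_mem_int t)
  obtain ⟨w, hw⟩ := exists_eq_ofHeightOneSpectrum_intRing P₀ htV
  obtain ⟨w', hw'⟩ := exists_eq_ofHeightOneSpectrum_intRing P₀' htV'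
  -- valuations `< 1` in terms of `w`
  have hval : ∀ (w : HeightOneSpectrum (intRing L t)) (x : F),
      (Place.ofHeightOneSpectrum (K := L) w).toValuationSubring.valuation x < 1 ↔
        w.valuation F x < 1 := by
    intro w x
    constructor
    · intro h
      have hx : x ∈ (Place.ofHeightOneSpectrum (K := L) w).toValuationSubring :=
        (ValuationSubring.valuation_le_one_iff _ _).mp h.le
      exact (mem_maximalIdeal_ofHeightOneSpectrum_iff (K := L) w ⟨x, hx⟩).mp
        ((ValuationSubring.valuation_lt_one_iff _ ⟨x, hx⟩).mpr h)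
    · intro h
      have hx : x ∈ (Place.ofHeightOneSpectrum (K := L) w).toValuationSubring :=
        (mem_ofHeightOneSpectrum_iff (K := L) w x).mpr h.le
      exact (ValuationSubring.valuation_lt_one_iff _ ⟨x, hx⟩).mp
        ((mem_maximalIdeal_ofHeightOneSpectrum_iff (K := L) w ⟨x, hx⟩).mpr h)
  have hww' : w = w' := by
    apply HeightOneSpectrum.ext
    ext r
    rw [← w.valuation_lt_one_iff_mem (K := F) r, ← w'.valuation_lt_one_iff_mem (K := F) r,
      ← hval w, ← hval w', ← hw, ← hw']
    obtain ⟨a, ha0, har⟩ := ssl_exists_scale (A := A) (L := L) t (algebraMap (intRing L t) F r) r.2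
    have h1 : ∀ W : ValuationSubring F, S18IsPlace L W →
        (W.valuation (algebraMap (intRing L t) F r) < 1 ↔
          W.valuation (algebraMap A F a * algebraMap (intRing L t) F r) < 1) := by
      intro W hW
      rw [map_mul, ssl_val_constA hW ha0, one_mul]
    rw [h1 _ hV, h1 _ hV']
    exact hc ⟨_, har⟩
  rw [hw, hw', hww']

end Main

end Fermat.Agent.SS
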