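import Mathlib
import Fermat.Agent.SS.Loc.Place

/-!
# Program S, package SS/Loc : evaluation at a rational place centred in `𝔫`

`SsPoint L ϖ t 𝔫 R` : `R` is an `L`-rational place of `F / L` centred in the prime `𝔫 ∋ ϖ` of `P`.
Then every `x ∈ P_𝔫` is congruent modulo `𝔪_R` to a unique constant `sslEv x ∈ A`; `sslEv` is a ring
homomorphism `P_𝔫 → A`, a retraction of `sslConst`, with kernel the centre of `R` on `P_𝔫`.
-/

set_option autoImplicit false
set_option linter.unusedSectionVars false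
set_option linter.unusedVariables false
set_option linter.style.haveILetI false

noncomputable section

namespace Fermat.Agent.SS

open Polynomial IntermediateField Fermat.Agent.S18 IsLocalRing

universe u

variable {A : Type*} [CommRing A] [IsDomain A] [IsDiscreteValuationRing A] [CharZero A]
variable {L : Type*} [Field L] [Algebra A L] [IsFractionRing A L]
variable {F : Type u} [Field F] [Algebra A F] [Algebra L F] [IsScalarTower A L F]
variable {ϖ : A}

/-- `R` is an `L`-rational place of `F / L` centred in `𝔫`, and `ϖ ∈ 𝔫` is a uniformiser of `A`. -/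
structure SsPoint (L : Type*) [Field L] [Algebra A L] [IsFractionRing A L] [Algebra L F]
    [IsScalarTower A L F] (ϖ : A) (t : F) (𝔫 : Ideal ↥(s18tInt A t))
    (R : ValuationSubring F) : Prop where
  place : S18IsPlace L R
  centred : SsCentred t 𝔫 R
  rational : SslRational L R
  unif : Irreducible ϖ
  mem : (⟨algebraMap A F ϖ, s18tc_algebraMap_mem_int t ϖ⟩ : ↥(s18tInt A t)) ∈ 𝔫

section Ev

variable {t : F} {𝔫 : Ideal ↥(s18tInt A t)} [h𝔫 : 𝔫.IsPrime] {R : ValuationSubring F}

/-- a unit of `P_𝔫` has valuation one at a place centred in `𝔫` -/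
theorem ssl_val_unit {V : ValuationSubring F} (hV : SsCentred t 𝔫 V) {y : ↥(ssLocRing t 𝔫)}
    (hy : IsUnit y) : V.valuation (y : F) = 1 := by
  obtain ⟨y', hy'⟩ := hy.exists_right_inv
  have h1 : V.valuation (y : F) ≤ 1 := (V.valuation_le_one_iff _).mpr (ssl_locRing_le t 𝔫 hV y.2)
  have h2 : V.valuation (y' : F) ≤ 1 := (V.valuation_le_one_iff _).mpr (ssl_locRing_le t 𝔫 hV y'.2)
  have h3 : V.valuation (y : F) * V.valuation (y' : F) = 1 := by
    rw [← map_mul]
    have : (y : F) * (y' : F) = 1 := congrArg (fun z : ↥(ssLocRing t 𝔫) => (z : F)) hy'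
    rw [this, map_one]
  apply le_antisymm h1
  by_contra h
  push Not at h
  have h4 : V.valuation (y : F) * V.valuation (y' : F) < 1 := mul_lt_one_of_lt_of_le h h2
  rw [h3] at h4
  exact lt_irrefl _ h4

/-- an element of `P_𝔫` of valuation `< 1` at a place centred in `𝔫` lies in `𝔫 P_𝔫` -/
theorem ssl_mem_max_of_val_lt {V : ValuationSubring F} (hV : SsCentred t 𝔫 V)
    {y : ↥(ssLocRing t 𝔫)} (hy : V.valuation (y : F) < 1) : y ∈ maximalIdeal ↥(ssLocRing t 𝔫) := by
  rw [mem_maximalIdeal, mem_nonunits_iff]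
  intro h
  rw [ssl_val_unit hV h] at hy
  exact lt_irrefl _ hy

/-- every `x ∈ P_𝔫` is congruent to a constant of `A` modulo `𝔪_R` -/
theorem ssl_exists_ev (hR : SsPoint L ϖ t 𝔫 R) (x : ↥(ssLocRing t 𝔫)) :
    ∃ a : A, R.valuation ((x : F) - algebraMap A F a) < 1 := by
  have hxR : (x : F) ∈ R := ssl_locRing_le t 𝔫 hR.centred x.2
  obtain ⟨c, hc⟩ := hR.rational _ hxR
  by_cases hex : ∃ a : A, algebraMap A L a = c
  · obtain ⟨a, ha⟩ := hex
    exact ⟨a, by rw [IsScalarTower.algebraMap_apply A L F, ha]; exact hc⟩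
  exfalso
  have hc0 : c ≠ 0 := fun h => hex ⟨0, by rw [h, map_zero]⟩
  rcases ValuationRing.isInteger_or_isInteger A c with ⟨a, ha⟩ | ⟨a', ha'⟩
  · exact hex ⟨a, ha⟩
  -- `a'` is not a unit
  have hu : ¬ IsUnit a' := by
    intro hu
    obtain ⟨b, hb⟩ := hu.exists_right_inv
    apply hex
    refine ⟨b, ?_⟩
    have h2 : algebraMap A L a' * algebraMap A L b = 1 := by rw [← map_mul, hb, map_one]
    rw [ha'] at h2
    have h3 := eq_inv_of_mul_eq_one_right h2
    rw [inv_inv] at h3
    exact h3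
  -- hence `a' ∈ (ϖ)`, and `ι a' * x ∈ 𝔫 P_𝔫`
  have ha'ϖ : ϖ ∣ a' := by
    have : a' ∈ maximalIdeal A := (mem_maximalIdeal _).mpr hu
    rw [hR.unif.maximalIdeal_eq] at this
    exact Ideal.mem_span_singleton.mp this
  obtain ⟨b, rfl⟩ := ha'ϖ
  have hm : sslConst t 𝔫 (ϖ * b) * x ∈ maximalIdeal ↥(ssLocRing t 𝔫) := by
    rw [map_mul, mul_assoc]
    exact Ideal.mul_mem_right _ _ (ssl_const_mem_max t 𝔫 hR.mem)
  have hunit : IsUnit (1 - sslConst t 𝔫 (ϖ * b) * x) := by
    by_contra h
    have h1 : (1 - sslConst t 𝔫 (ϖ * b) * x) ∈ maximalIdeal ↥(ssLocRing t 𝔫) :=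
      (mem_maximalIdeal _).mpr h
    have h2 := (maximalIdeal ↥(ssLocRing t 𝔫)).add_mem h1 hm
    rw [sub_add_cancel] at h2
    exact (mem_maximalIdeal _).mp h2 isUnit_one
  have h1 := ssl_val_unit hR.centred hunit
  -- but `1 - c⁻¹ x = - c⁻¹ (x - c)` has valuation `< 1`
  have h2 : ((1 - sslConst t 𝔫 (ϖ * b) * x : ↥(ssLocRing t 𝔫)) : F) =
      -(algebraMap L F c⁻¹ * ((x : F) - algebraMap L F c)) := by
    have e1 : algebraMap A F (ϖ * b) = algebraMap L F c⁻¹ := by
      rw [IsScalarTower.algebraMap_apply A L F, ha']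
    have e2 : algebraMap L F c⁻¹ * algebraMap L F c = 1 := by
      rw [← map_mul, inv_mul_cancel₀ hc0, map_one]
    rw [AddSubgroupClass.coe_sub, Subring.coe_one, Subring.coe_mul, sslConst_coe, e1]
    linear_combination -e2
  rw [h2, Valuation.map_neg, map_mul, ssl_val_const hR.place (inv_ne_zero hc0), one_mul] at h1
  rw [h1] at hc
  exact lt_irrefl _ hc

/-- uniqueness of the constant -/
theorem ssl_ev_unique_aux (hR : SsPoint L ϖ t 𝔫 R) {x : F} {a a' : A}
    (h : R.valuation (x - algebraMap A F a) < 1) (h' : R.valuation (x - algebraMap A F a') < 1) :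
    a = a' := by
  by_contra hne
  have h1 : R.valuation (algebraMap A F (a' - a)) = 1 :=
    ssl_val_constA hR.place (sub_ne_zero.mpr (Ne.symm hne))
  have h2 : algebraMap A F (a' - a) = (x - algebraMap A F a) - (x - algebraMap A F a') := by
    rw [map_sub]; ring
  rw [h2] at h1
  have h3 := Valuation.map_sub_lt _ h h'
  rw [h1] at h3
  exact lt_irrefl _ h3

/-- the value of `x ∈ P_𝔫` at `R` -/
def sslEvFun (hR : SsPoint L ϖ t 𝔫 R) (x : ↥(ssLocRing t 𝔫)) : A :=
  Classical.choose (ssl_exists_ev hR x)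

theorem sslEvFun_spec (hR : SsPoint L ϖ t 𝔫 R) (x : ↥(ssLocRing t 𝔫)) :
    R.valuation ((x : F) - algebraMap A F (sslEvFun hR x)) < 1 :=
  Classical.choose_spec (ssl_exists_ev hR x)

theorem sslEvFun_eq (hR : SsPoint L ϖ t 𝔫 R) {x : ↥(ssLocRing t 𝔫)} {a : A}
    (h : R.valuation ((x : F) - algebraMap A F a) < 1) : sslEvFun hR x = a :=
  ssl_ev_unique_aux hR (sslEvFun_spec hR x) h

/-- evaluation at `R` as a ring homomorphism `P_𝔫 → A` -/
def sslEv (hR : SsPoint L ϖ t 𝔫 R) : ↥(ssLocRing t 𝔫) →+* A where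
  toFun := sslEvFun hR
  map_one' := sslEvFun_eq hR (by
    rw [map_one, OneMemClass.coe_one, sub_self, map_zero]; exact zero_lt_one)
  map_zero' := sslEvFun_eq hR (by
    rw [map_zero, ZeroMemClass.coe_zero, sub_self, map_zero]; exact zero_lt_one)
  map_mul' x y := sslEvFun_eq hR (by
    have hx := sslEvFun_spec hR x
    have hy := sslEvFun_spec hR y
    have hxR : R.valuation (x : F) ≤ 1 :=
      (R.valuation_le_one_iff _).mpr (ssl_locRing_le t 𝔫 hR.centred x.2)
    have haR : R.valuation (algebraMap A F (sslEvFun hR y)) ≤ 1 := by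
      rw [IsScalarTower.algebraMap_apply A L F]
      exact (R.valuation_le_one_iff _).mpr (hR.place.2 _)
    have e : ((x * y : ↥(ssLocRing t 𝔫)) : F) - algebraMap A F (sslEvFun hR x * sslEvFun hR y) =
        (x : F) * ((y : F) - algebraMap A F (sslEvFun hR y)) +
          algebraMap A F (sslEvFun hR y) * ((x : F) - algebraMap A F (sslEvFun hR x)) := by
      rw [Subring.coe_mul, map_mul]; ring
    rw [e]
    refine Valuation.map_add_lt _ ?_ ?_
    · rw [map_mul, mul_comm]; exact mul_lt_one_of_lt_of_le hy hxR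
    · rw [map_mul, mul_comm]; exact mul_lt_one_of_lt_of_le hx haR)
  map_add' x y := sslEvFun_eq hR (by
    have hx := sslEvFun_spec hR x
    have hy := sslEvFun_spec hR y
    have e : ((x + y : ↥(ssLocRing t 𝔫)) : F) - algebraMap A F (sslEvFun hR x + sslEvFun hR y) =
        ((x : F) - algebraMap A F (sslEvFun hR x)) + ((y : F) - algebraMap A F (sslEvFun hR y)) := by
      rw [Subring.coe_add, map_add]; ring
    rw [e]
    exact Valuation.map_add_lt _ hx hy)

theorem sslEv_spec (hR : SsPoint L ϖ t 𝔫 R) (x : ↥(ssLocRing t 𝔫)) :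
    R.valuation ((x : F) - algebraMap A F (sslEv hR x)) < 1 := sslEvFun_spec hR x

theorem sslEv_eq (hR : SsPoint L ϖ t 𝔫 R) {x : ↥(ssLocRing t 𝔫)} {a : A}
    (h : R.valuation ((x : F) - algebraMap A F a) < 1) : sslEv hR x = a := sslEvFun_eq hR h

/-- `sslEv` is a retraction of the constants -/
theorem sslEv_const (hR : SsPoint L ϖ t 𝔫 R) (a : A) : sslEv hR (sslConst t 𝔫 a) = a :=
  sslEv_eq hR (by rw [sslConst_coe, sub_self, map_zero]; exact zero_lt_one)

/-- the kernel of `sslEv` is the centre of `R` -/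
theorem sslEv_ker (hR : SsPoint L ϖ t 𝔫 R) :
    RingHom.ker (sslEv hR) = sslCentre t 𝔫 hR.centred := by
  ext x
  rw [RingHom.mem_ker, mem_sslCentre]
  constructor
  · intro h
    have := sslEv_spec hR x
    rwa [h, map_zero, sub_zero] at this
  · intro h
    exact sslEv_eq hR (by rw [map_zero, sub_zero]; exact h)

end Ev

end Fermat.Agent.SS
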