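import Mathlib
import Fermat.Agent.SS.Loc.Ev

/-!
# Program S, package SS/Loc : a function cutting out a rational place centred in `𝔫`

`R` a rational place centred in `𝔫` (`SsPoint`), `f ∈ P_𝔫` with `f(R) = 0`, `c ∈ A ∖ {0}` such that
`c x ∈ f P_𝔫` for every `x ∈ P_𝔫` vanishing at `R`.  Then

* `ssl_factor` : every nonzero `p ∈ P_𝔫` is `c^k p = f^k y` with `y ∈ P_𝔫`, `y(R) ≠ 0`;
* `ssl_isUnif` : `f` is a uniformiser of `R`;
* `ssl_place_eq` : a place `V` centred in `𝔫` with the same centre as `R` on `P_𝔫` is `R`.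
-/

set_option autoImplicit false
set_option linter.unusedSectionVars false
set_option linter.unusedVariables false
set_option linter.style.haveILetI false

noncomputable section

namespace Fermat.Agent.SS

open Polynomial IntermediateField Fermat.Agent.S18 IsLocalRing AlgebraicCurve

universe u

variable {A : Type*} [CommRing A] [IsDomain A] [IsDiscreteValuationRing A] [CharZero A]
variable {L : Type*} [Field L] [Algebra A L] [IsFractionRing A L]
variable {F : Type u} [Field F] [Algebra A F] [Algebra L F] [IsScalarTower A L F]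
variable {ϖ : A}

section Ord

variable (P₀ : Place L F)

/-- constants have order zero -/
theorem ssl_ord_const {c : L} (hc : c ≠ 0) : P₀.ord (algebraMap L F c) = 0 := by
  have hP : S18IsPlace L P₀.toValuationSubring := ⟨P₀.ne_top', P₀.algebraMap_mem'⟩
  have hc' : algebraMap L F c ≠ 0 := (map_ne_zero_iff _ (algebraMap L F).injective).mpr hc
  have h1 : ¬ 0 < P₀.ord (algebraMap L F c) := by
    rw [s18r_ord_pos_iff P₀ _ hc', ssl_val_const hP hc]
    exact lt_irrefl _
  have h2 : ¬ 0 < P₀.ord (algebraMap L F c)⁻¹ := by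
    rw [s18r_ord_pos_iff P₀ _ (inv_ne_zero hc'), ← map_inv₀, ssl_val_const hP (inv_ne_zero hc)]
    exact lt_irrefl _
  rw [P₀.ord_inv] at h2
  omega

/-- an element of valuation one has order zero -/
theorem ssl_ord_of_val_one {x : F} (hx : P₀.toValuationSubring.valuation x = 1) :
    P₀.ord x = 0 := by
  have hx0 : x ≠ 0 := by
    rintro rfl
    rw [map_zero] at hx
    exact zero_ne_one hx
  have h1 : ¬ 0 < P₀.ord x := by
    rw [s18r_ord_pos_iff P₀ _ hx0, hx]
    exact lt_irrefl _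
  have h2 : ¬ 0 < P₀.ord x⁻¹ := by
    rw [s18r_ord_pos_iff P₀ _ (inv_ne_zero hx0), map_inv₀, hx, inv_one]
    exact lt_irrefl _
  rw [P₀.ord_inv] at h2
  omega

end Ord

section Factor

variable {t : F} {𝔫 : Ideal ↥(s18tInt A t)} [h𝔫 : 𝔫.IsPrime]
variable (P₀ : Place L F) (hR : SsPoint L ϖ t 𝔫 P₀.toValuationSubring)

include hR

/-- the factorisation lemma -/
theorem ssl_factor (f : ↥(ssLocRing t 𝔫)) (c : A) (hc : c ≠ 0)
    (hf : P₀.toValuationSubring.valuation (f : F) < 1)
    (hdiv : ∀ x : ↥(ssLocRing t 𝔫), P₀.toValuationSubring.valuation (x : F) < 1 →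
      ∃ y : ↥(ssLocRing t 𝔫), sslConst t 𝔫 c * x = f * y) :
    ∀ (n : ℕ) (p : ↥(ssLocRing t 𝔫)), p ≠ 0 → P₀.ord (p : F) ≤ n →
      ∃ (k : ℕ) (y : ↥(ssLocRing t 𝔫)), P₀.toValuationSubring.valuation (y : F) = 1 ∧
        sslConst t 𝔫 c ^ k * p = f ^ k * y := by
  have hcF : algebraMap A F c ≠ 0 :=
    (map_ne_zero_iff _ (ssl_algebraMap_injective A L F)).mpr hc
  have hordc : P₀.ord (algebraMap A F c) = 0 := by
    rw [IsScalarTower.algebraMap_apply A L F]
    exact ssl_ord_const P₀ ((map_ne_zero_iff _ (IsFractionRing.injective A L)).mpr hc)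
  have hf0 : (f : F) ≠ 0 ∨ True := Or.inr trivial
  intro n
  induction n with
  | zero =>
    intro p hp hord
    have hpF : (p : F) ≠ 0 := fun h => hp (Subtype.ext h)
    have hpR : (p : F) ∈ P₀.toValuationSubring := ssl_locRing_le t 𝔫 hR.centred p.2
    have h0 : P₀.ord (p : F) = 0 := by
      have := Fermat.Agent.S24.PlaceOrd.ord_nonneg_of_mem P₀ hpR
      omega
    refine ⟨0, p, ?_, by simp⟩
    apply le_antisymm ((P₀.toValuationSubring.valuation_le_one_iff _).mpr hpR)
    by_contra h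
    push Not at h
    have := (s18r_ord_pos_iff P₀ _ hpF).mpr h
    omega
  | succ n ih =>
    intro p hp hord
    have hpF : (p : F) ≠ 0 := fun h => hp (Subtype.ext h)
    have hpR : (p : F) ∈ P₀.toValuationSubring := ssl_locRing_le t 𝔫 hR.centred p.2
    by_cases hp1 : P₀.toValuationSubring.valuation (p : F) < 1
    · obtain ⟨y₁, hy₁⟩ := hdiv p hp1
      have hy₁F : algebraMap A F c * (p : F) = (f : F) * (y₁ : F) :=
        congrArg (fun z : ↥(ssLocRing t 𝔫) => (z : F)) hy₁
      have hfy : (f : F) * (y₁ : F) ≠ 0 := by rw [← hy₁F]; exact mul_ne_zero hcF hpF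
      have hfF : (f : F) ≠ 0 := left_ne_zero_of_mul hfy
      have hy₁F0 : (y₁ : F) ≠ 0 := right_ne_zero_of_mul hfy
      have hy₁0 : y₁ ≠ 0 := fun h => hy₁F0 (by rw [h]; rfl)
      have hordf : 0 < P₀.ord (f : F) := (s18r_ord_pos_iff P₀ _ hfF).mpr hf
      have hord₁ : P₀.ord (y₁ : F) ≤ n := by
        have h1 := congrArg P₀.ord hy₁F
        rw [P₀.ord_mul hcF hpF, P₀.ord_mul hfF hy₁F0, hordc] at h1
        push_cast at hord
        omega
      obtain ⟨k, y, hy, hky⟩ := ih y₁ hy₁0 hord₁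
      refine ⟨k + 1, y, hy, ?_⟩
      calc sslConst t 𝔫 c ^ (k + 1) * p = sslConst t 𝔫 c ^ k * (sslConst t 𝔫 c * p) := by ring
        _ = sslConst t 𝔫 c ^ k * (f * y₁) := by rw [hy₁]
        _ = f * (sslConst t 𝔫 c ^ k * y₁) := by ring
        _ = f * (f ^ k * y) := by rw [hky]
        _ = f ^ (k + 1) * y := by ring
    · refine ⟨0, p, ?_, by simp⟩
      push Not at hp1
      exact le_antisymm ((P₀.toValuationSubring.valuation_le_one_iff _).mpr hpR) hp1

omit hR in
/-- order of a power -/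
theorem ssl_ord_pow (x : F) (k : ℕ) : P₀.ord (x ^ k) = k * P₀.ord x := by
  rw [← zpow_natCast, P₀.ord_zpow]

omit hR in
/-- every element of `F` is a quotient of elements of `P` -/
theorem ssl_exists_denominator (ht : Transcendental L t) [FiniteDimensional L⟮t⟯ F] (x : F) :
    ∃ s : ↥(s18tInt A t), s ≠ 0 ∧ (s : F) * x ∈ s18tInt A t := by
  obtain ⟨r, hr0, hr⟩ := s18tlg_exists_multiple_mem_int (A := A) ht x
  have htA : Transcendental A t := s18tb_transcendental ht
  exact ⟨⟨aeval t r, s18tc_chart_le_int t (s18tb_aeval_mem_chart t r)⟩,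
    fun h => s18tlg_aeval_ne_zero htA hr0 (congrArg Subtype.val h), hr⟩

omit hR in
/-- membership in a valuation subring read off from a factorisation -/
theorem ssl_mem_iff_aux (W : ValuationSubring F) {f p s x : F} {k l : ℕ}
    (hf0 : W.valuation f ≠ 0) (hf1 : W.valuation f < 1) (hp : W.valuation p = W.valuation f ^ k)
    (hs : W.valuation s = W.valuation f ^ l) (hx : s * x = p) : x ∈ W ↔ l ≤ k := by
  have hs0 : 0 < W.valuation s := by rw [hs]; exact pow_pos (zero_lt_iff.mpr hf0) l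
  rw [← W.valuation_le_one_iff, ← mul_le_iff_le_one_right hs0, ← map_mul, hx, hp, hs]
  exact pow_le_pow_iff_right_of_lt_one₀ (zero_lt_iff.mpr hf0) hf1

/-- `f` is a uniformiser of `R` -/
theorem ssl_isUnif (ht : Transcendental L t) [FiniteDimensional L⟮t⟯ F]
    (f : ↥(ssLocRing t 𝔫)) (c : A) (hc : c ≠ 0)
    (hf : P₀.toValuationSubring.valuation (f : F) < 1)
    (hdiv : ∀ x : ↥(ssLocRing t 𝔫), P₀.toValuationSubring.valuation (x : F) < 1 →
      ∃ y : ↥(ssLocRing t 𝔫), sslConst t 𝔫 c * x = f * y) :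
    S18IsUnif P₀.toValuationSubring (f : F) := by
  obtain ⟨π, hdisc, hordπ, hval⟩ := s18r_place_disc P₀
  have hπ0 : π ≠ 0 := hdisc.1
  obtain ⟨s, hs0, hsπ⟩ := ssl_exists_denominator (A := A) (L := L) ht π
  have hsF : (s : F) ≠ 0 := fun h => hs0 (Subtype.ext h)
  set sO : ↥(ssLocRing t 𝔫) := ⟨(s : F), ssl_int_le_locRing t 𝔫 s.2⟩ with hsO
  set pO : ↥(ssLocRing t 𝔫) := ⟨(s : F) * π, ssl_int_le_locRing t 𝔫 hsπ⟩ with hpO
  have hsO0 : sO ≠ 0 := fun h => hsF (congrArg Subtype.val h)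
  have hpF : (s : F) * π ≠ 0 := mul_ne_zero hsF hπ0
  have hpO0 : pO ≠ 0 := fun h => hpF (congrArg Subtype.val h)
  have hcF : algebraMap A F c ≠ 0 :=
    (map_ne_zero_iff _ (ssl_algebraMap_injective A L F)).mpr hc
  have hordc : P₀.ord (algebraMap A F c) = 0 := by
    rw [IsScalarTower.algebraMap_apply A L F]
    exact ssl_ord_const P₀ ((map_ne_zero_iff _ (IsFractionRing.injective A L)).mpr hc)
  obtain ⟨k, y, hy, hky⟩ := ssl_factor P₀ hR f c hc hf hdiv (P₀.ord (pO : F)).toNat pO hpO0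
    (Int.self_le_toNat _)
  obtain ⟨l, y', hy', hly⟩ := ssl_factor P₀ hR f c hc hf hdiv (P₀.ord (sO : F)).toNat sO hsO0
    (Int.self_le_toNat _)
  have hkyF : algebraMap A F c ^ k * ((s : F) * π) = (f : F) ^ k * (y : F) :=
    congrArg (fun z : ↥(ssLocRing t 𝔫) => (z : F)) hky
  have hlyF : algebraMap A F c ^ l * (s : F) = (f : F) ^ l * (y' : F) :=
    congrArg (fun z : ↥(ssLocRing t 𝔫) => (z : F)) hly
  have hyF0 : (y : F) ≠ 0 := by
    intro h; rw [h, map_zero] at hy; exact zero_ne_one hy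
  have hy'F0 : (y' : F) ≠ 0 := by
    intro h; rw [h, map_zero] at hy'; exact zero_ne_one hy'
  -- `f ≠ 0`
  have hfF : (f : F) ≠ 0 := by
    intro hf0
    have hπ1 : P₀.toValuationSubring.valuation ((pO : ↥(ssLocRing t 𝔫)) : F) < 1 := by
      show P₀.toValuationSubring.valuation ((s : F) * π) < 1
      rw [map_mul, mul_comm]
      exact mul_lt_one_of_lt_of_le hdisc.2.1.1
        ((P₀.toValuationSubring.valuation_le_one_iff _).mpr
          (ssl_locRing_le t 𝔫 hR.centred sO.2))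
    obtain ⟨z, hz⟩ := hdiv pO hπ1
    have hzF : algebraMap A F c * ((s : F) * π) = (f : F) * (z : F) :=
      congrArg (fun z : ↥(ssLocRing t 𝔫) => (z : F)) hz
    rw [hf0, zero_mul] at hzF
    exact mul_ne_zero hcF hpF hzF
  have hordf : 0 < P₀.ord (f : F) := (s18r_ord_pos_iff P₀ _ hfF).mpr hf
  have h1 : P₀.ord ((s : F) * π) = k * P₀.ord (f : F) := by
    have := congrArg P₀.ord hkyF
    rw [P₀.ord_mul (pow_ne_zero _ hcF) hpF, P₀.ord_mul (pow_ne_zero _ hfF) hyF0,
      ssl_ord_pow, ssl_ord_pow, hordc, ssl_ord_of_val_one P₀ hy] at this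
    linarith
  have h2 : P₀.ord (s : F) = l * P₀.ord (f : F) := by
    have := congrArg P₀.ord hlyF
    rw [P₀.ord_mul (pow_ne_zero _ hcF) hsF, P₀.ord_mul (pow_ne_zero _ hfF) hy'F0,
      ssl_ord_pow, ssl_ord_pow, hordc, ssl_ord_of_val_one P₀ hy'] at this
    linarith
  have h3 : P₀.ord ((s : F) * π) = P₀.ord (s : F) + 1 := by rw [P₀.ord_mul hsF hπ0, hordπ]
  have h4 : P₀.ord (f : F) = 1 := by
    have hdvd : P₀.ord (f : F) ∣ 1 := ⟨(k : ℤ) - l, by rw [mul_sub]; linarith⟩
    exact Int.eq_one_of_dvd_one hordf.le hdvd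
  have h5 : P₀.toValuationSubring.valuation (f : F) = P₀.toValuationSubring.valuation π := by
    rw [hval _ hfF, h4, zpow_one]
  exact ⟨hf, fun x hx => by rw [h5]; exact hdisc.2.1.2 x hx⟩

/-- a place centred in `𝔫` with the same centre as `R` on `P_𝔫` is `R` -/
theorem ssl_place_eq (ht : Transcendental L t) [FiniteDimensional L⟮t⟯ F]
    (f : ↥(ssLocRing t 𝔫)) (c : A) (hc : c ≠ 0)
    (hf : P₀.toValuationSubring.valuation (f : F) < 1)
    (hdiv : ∀ x : ↥(ssLocRing t 𝔫), P₀.toValuationSubring.valuation (x : F) < 1 →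
      ∃ y : ↥(ssLocRing t 𝔫), sslConst t 𝔫 c * x = f * y)
    {V : ValuationSubring F} (hVp : S18IsPlace L V) (hVc : SsCentred t 𝔫 V)
    (hcentre : ∀ x : ↥(ssLocRing t 𝔫), V.valuation (x : F) < 1 ↔
      P₀.toValuationSubring.valuation (x : F) < 1) : V = P₀.toValuationSubring := by
  have hcF : algebraMap A F c ≠ 0 :=
    (map_ne_zero_iff _ (ssl_algebraMap_injective A L F)).mpr hc
  -- elements of `P_𝔫` of `R`-valuation one have `V`-valuation one
  have hone : ∀ y : ↥(ssLocRing t 𝔫), P₀.toValuationSubring.valuation (y : F) = 1 →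
      V.valuation (y : F) = 1 := by
    intro y hy
    apply le_antisymm ((V.valuation_le_one_iff _).mpr (ssl_locRing_le t 𝔫 hVc y.2))
    by_contra h
    push Not at h
    have := (hcentre y).mp h
    rw [hy] at this
    exact lt_irrefl _ this
  ext x
  by_cases hx0 : x = 0
  · rw [hx0]; exact ⟨fun _ => zero_mem _, fun _ => zero_mem _⟩
  obtain ⟨s, hs0, hsx⟩ := ssl_exists_denominator (A := A) (L := L) ht x
  have hsF : (s : F) ≠ 0 := fun h => hs0 (Subtype.ext h)
  set sO : ↥(ssLocRing t 𝔫) := ⟨(s : F), ssl_int_le_locRing t 𝔫 s.2⟩ with hsO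
  set pO : ↥(ssLocRing t 𝔫) := ⟨(s : F) * x, ssl_int_le_locRing t 𝔫 hsx⟩ with hpO
  have hsO0 : sO ≠ 0 := fun h => hsF (congrArg Subtype.val h)
  have hpF : (s : F) * x ≠ 0 := mul_ne_zero hsF hx0
  have hpO0 : pO ≠ 0 := fun h => hpF (congrArg Subtype.val h)
  obtain ⟨k, y, hy, hky⟩ := ssl_factor P₀ hR f c hc hf hdiv (P₀.ord (pO : F)).toNat pO hpO0
    (Int.self_le_toNat _)
  obtain ⟨l, y', hy', hly⟩ := ssl_factor P₀ hR f c hc hf hdiv (P₀.ord (sO : F)).toNat sO hsO0
    (Int.self_le_toNat _)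
  have hkyF : algebraMap A F c ^ k * ((s : F) * x) = (f : F) ^ k * (y : F) :=
    congrArg (fun z : ↥(ssLocRing t 𝔫) => (z : F)) hky
  have hlyF : algebraMap A F c ^ l * (s : F) = (f : F) ^ l * (y' : F) :=
    congrArg (fun z : ↥(ssLocRing t 𝔫) => (z : F)) hly
  have hyF0 : (y : F) ≠ 0 := by
    intro h; rw [h, map_zero] at hy; exact zero_ne_one hy
  -- `f ≠ 0`
  have hfF : (f : F) ≠ 0 := by
    intro hf0
    obtain ⟨π, hdisc, -, -⟩ := s18r_place_disc P₀
    obtain ⟨s', hs'0, hs'π⟩ := ssl_exists_denominator (A := A) (L := L) ht π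
    have hs'F : (s' : F) ≠ 0 := fun h => hs'0 (Subtype.ext h)
    have hπ1 : P₀.toValuationSubring.valuation
        ((⟨(s' : F) * π, ssl_int_le_locRing t 𝔫 hs'π⟩ : ↥(ssLocRing t 𝔫)) : F) < 1 := by
      show P₀.toValuationSubring.valuation ((s' : F) * π) < 1
      rw [map_mul, mul_comm]
      exact mul_lt_one_of_lt_of_le hdisc.2.1.1
        ((P₀.toValuationSubring.valuation_le_one_iff _).mpr
          (ssl_locRing_le t 𝔫 hR.centred (ssl_int_le_locRing t 𝔫 s'.2)))
    obtain ⟨z, hz⟩ := hdiv _ hπ1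
    have hzF : algebraMap A F c * ((s' : F) * π) = (f : F) * (z : F) :=
      congrArg (fun z : ↥(ssLocRing t 𝔫) => (z : F)) hz
    rw [hf0, zero_mul] at hzF
    exact mul_ne_zero hcF (mul_ne_zero hs'F hdisc.1) hzF
  -- valuations of `p`, `s` at both places
  have key : ∀ W : ValuationSubring F, S18IsPlace L W → W.valuation (y : F) = 1 →
      W.valuation (y' : F) = 1 → W.valuation (f : F) < 1 → (x ∈ W ↔ l ≤ k) := by
    intro W hW hWy hWy' hWf
    have hWc : W.valuation (algebraMap A F c) = 1 := ssl_val_constA hW hc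
    have hWf0 : W.valuation (f : F) ≠ 0 := (Valuation.ne_zero_iff _).mpr hfF
    have hp : W.valuation ((s : F) * x) = W.valuation (f : F) ^ k := by
      have h := congrArg W.valuation hkyF
      rw [map_mul W.valuation (algebraMap A F c ^ k), map_pow, hWc, one_pow, one_mul] at h
      rw [h, map_mul, map_pow, hWy, mul_one]
    have hs : W.valuation (s : F) = W.valuation (f : F) ^ l := by
      have h := congrArg W.valuation hlyF
      rw [map_mul W.valuation (algebraMap A F c ^ l), map_pow, hWc, one_pow, one_mul] at h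
      rw [h, map_mul, map_pow, hWy', mul_one]
    exact ssl_mem_iff_aux W hWf0 hWf hp hs rfl
  have hRp : S18IsPlace L P₀.toValuationSubring := hR.place
  rw [key V hVp (hone y hy) (hone y' hy') ((hcentre f).mpr hf), key _ hRp hy hy' hf]

end Factor

end Fermat.Agent.SS
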