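import Mathlib
import Fermat.Agent.SS.Loc.Unif

/-!
# Program S, package SS/Loc : LOC and DEEP in the S18/T setting (leaves `ss_loc_smooth`,
`ss_loc_cross`, `ss_deep`, `ss_loc_cross_main`)

`A` a DVR of characteristic `0` with uniformiser `ϖ`, `L = Frac A`, `F / L(t)` finite,
`P = s18tInt A t`, `𝔫 ∋ ϖ` a prime of `P`, `R` an `L`-rational place of `F / L` centred in `𝔫`
(`SsPoint L ϖ t 𝔫 R`).

* `SsGen ϖ t 𝔫 u w` : `𝔫 P_𝔫 = (ϖ, u, w)` (`u, w ∈ F`);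
* `ss_loc_smooth` : if `𝔫 P_𝔫 = (ϖ, z)` and `a = z(R)`, then `z - a` is a uniformiser of `R` and has
  no other zero among the places centred in `𝔫`;
* `ss_loc_cross` : if `𝔫 P_𝔫 = (ϖ, u, w)`, `u w = κ - d ρ` (`κ, d ∈ A`, `ρ ∈ P_𝔫`), `a = u(R) ≠ 0`
  and `d ∈ a ϖ A`, then `u - a` is a uniformiser of `R` and has no other zero among the places
  centred in `𝔫`;
* `ss_deep` : if for all `n` : `𝔫 P_𝔫 = (ϖ, u_n, w_n)` with `u_n(R), w_n(R) ∈ ϖ^n A`, and `σ` is an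
  automorphism of `F` preserving `A`, `P`, `𝔫`, fixing all `u_n, w_n`, then `σ` preserves the centre
  of `R` on `P_𝔫`;
* `ss_loc_cross_main` : the dichotomy (DEEP) ∨ (LOC) at a crossing point.
-/

set_option autoImplicit false
set_option linter.unusedSectionVars false
set_option linter.unusedVariables false
set_option linter.style.haveILetI false

noncomputable section

namespace Fermat.Agent.SS

open Polynomial IntermediateField Fermat.Agent.S18 IsLocalRing AlgebraicCurve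

universe u

variable {A : Type*} [CommRing A] [IsDomain A] [IsDiscreteValuationRing A] [CharZero A]
variable {L : Type*} [Field L] [Algebra A L] [IsFractionRing A L]
variable {F : Type u} [Field F] [Algebra A F] [Algebra L F] [IsScalarTower A L F]
variable {ϖ : A}

/-- `𝔫 P_𝔫 = (ϖ, u, w)` -/
def SsGen (ϖ : A) (t : F) (𝔫 : Ideal ↥(s18tInt A t)) (u w : F) : Prop :=
  SsInMax t 𝔫 u ∧ SsInMax t 𝔫 w ∧
  ∀ p : ↥(s18tInt A t), p ∈ 𝔫 → ∃ x y z : F, SsInLoc t 𝔫 x ∧ SsInLoc t 𝔫 y ∧ SsInLoc t 𝔫 z ∧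
    (p : F) = x * algebraMap A F ϖ + y * u + z * w

theorem SsGen.symm {t : F} {𝔫 : Ideal ↥(s18tInt A t)} {u w : F} (h : SsGen ϖ t 𝔫 u w) :
    SsGen ϖ t 𝔫 w u := by
  refine ⟨h.2.1, h.1, fun p hp => ?_⟩
  obtain ⟨x, y, z, hx, hy, hz, hp⟩ := h.2.2 p hp
  exact ⟨x, z, y, hx, hz, hy, by rw [hp]; ring⟩

section Max

variable {t : F} {𝔫 : Ideal ↥(s18tInt A t)} [h𝔫 : 𝔫.IsPrime]

/-- the maximal ideal of `P_𝔫` from `SsGen` -/
theorem ssl_max_eq {u w : F}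
    (hϖ𝔫 : (⟨algebraMap A F ϖ, s18tc_algebraMap_mem_int t ϖ⟩ : ↥(s18tInt A t)) ∈ 𝔫)
    (hgen : SsGen ϖ t 𝔫 u w) :
    maximalIdeal ↥(ssLocRing t 𝔫) = Ideal.span {sslConst t 𝔫 ϖ,
      (⟨u, hgen.1.inLoc⟩ : ↥(ssLocRing t 𝔫)), (⟨w, hgen.2.1.inLoc⟩ : ↥(ssLocRing t 𝔫))} := by
  apply le_antisymm
  · intro x hx
    obtain ⟨s, hs, p, hp, hsp⟩ := (ssl_mem_maximalIdeal t 𝔫 x).mp hx
    obtain ⟨x', y', z', hx', hy', hz', hpe⟩ := hgen.2.2 p hp
    have hunit := ssl_isUnit_of_not_mem t 𝔫 hs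
    rw [← Ideal.unit_mul_mem_iff_mem _ hunit]
    have e : algebraMap ↥(s18tInt A t) ↥(ssLocRing t 𝔫) s * x =
        (⟨x', hx'⟩ : ↥(ssLocRing t 𝔫)) * sslConst t 𝔫 ϖ +
          (⟨y', hy'⟩ : ↥(ssLocRing t 𝔫)) * (⟨u, hgen.1.inLoc⟩ : ↥(ssLocRing t 𝔫)) +
          (⟨z', hz'⟩ : ↥(ssLocRing t 𝔫)) * (⟨w, hgen.2.1.inLoc⟩ : ↥(ssLocRing t 𝔫)) := by
      apply Subtype.ext
      show (s : F) * (x : F) = x' * algebraMap A F ϖ + y' * u + z' * w
      rw [hsp, hpe]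
    rw [e]
    refine Ideal.add_mem _ (Ideal.add_mem _ ?_ ?_) ?_
    · exact Ideal.mul_mem_left _ _ (Ideal.subset_span (by simp))
    · exact Ideal.mul_mem_left _ _ (Ideal.subset_span (by simp))
    · exact Ideal.mul_mem_left _ _ (Ideal.subset_span (by simp))
  · rw [Ideal.span_le]
    rintro x hx
    simp only [Set.mem_insert_iff, Set.mem_singleton_iff] at hx
    rcases hx with rfl | rfl | rfl
    · exact ssl_const_mem_max t 𝔫 hϖ𝔫
    · exact (ssl_mem_maximalIdeal t 𝔫 _).mpr hgen.1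
    · exact (ssl_mem_maximalIdeal t 𝔫 _).mpr hgen.2.1

end Max

section Loc

variable {t : F} {𝔫 : Ideal ↥(s18tInt A t)} [h𝔫 : 𝔫.IsPrime] {R : ValuationSubring F}

/-- (LOC) at a crossing point. -/
theorem ss_loc_cross (ht : Transcendental L t) [FiniteDimensional L⟮t⟯ F]
    (hR : SsPoint L ϖ t 𝔫 R) (u w ρ : F) (hgen : SsGen ϖ t 𝔫 u w) (hρ : SsInLoc t 𝔫 ρ)
    (κ d : A) (hnode : u * w = algebraMap A F κ - algebraMap A F d * ρ)
    (a : A) (ha : R.valuation (u - algebraMap A F a) < 1) (ha0 : a ≠ 0)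
    (c : A) (hc : d = a * c) (hcϖ : ϖ ∣ c) :
    S18IsUnif R (u - algebraMap A F a) ∧
    ∀ V : ValuationSubring F, S18IsPlace L V → SsCentred t 𝔫 V →
      V.valuation (u - algebraMap A F a) < 1 → V = R := by
  obtain ⟨P₀, rfl⟩ := s18r_exists_place t ht R hR.place
  haveI := ssl_locRing_isNoetherianRing (L := L) t ht 𝔫
  set uO : ↥(ssLocRing t 𝔫) := ⟨u, hgen.1.inLoc⟩ with huO
  set wO : ↥(ssLocRing t 𝔫) := ⟨w, hgen.2.1.inLoc⟩ with hwO
  set ρO : ↥(ssLocRing t 𝔫) := ⟨ρ, hρ⟩ with hρO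
  have hmax := ssl_max_eq hR.mem hgen
  have hev : ∀ a, sslEv hR (sslConst t 𝔫 a) = a := sslEv_const hR
  have hau : sslEv hR uO = a := sslEv_eq hR ha
  have hnodeO : uO * wO = sslConst t 𝔫 κ - sslConst t 𝔫 d * ρO := Subtype.ext hnode
  have hc' : d = sslEv hR uO * c := by rw [hau]; exact hc
  set f : ↥(ssLocRing t 𝔫) := uO - sslConst t 𝔫 a with hf
  have hfF : (f : F) = u - algebraMap A F a := rfl
  have hdiv : ∀ x : ↥(ssLocRing t 𝔫), P₀.toValuationSubring.valuation (x : F) < 1 →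
      ∃ y : ↥(ssLocRing t 𝔫), sslConst t 𝔫 a * x = f * y := by
    intro x hx
    have hxk : x ∈ RingHom.ker (sslEv hR) := by
      rw [sslEv_ker, mem_sslCentre]; exact hx
    obtain ⟨y, hy⟩ := ssl_cross (sslConst t 𝔫) (sslEv hR) hev ϖ hR.unif uO wO ρO hmax κ d hnodeO
      c hc' hcϖ hxk
    rw [hau] at hy
    exact ⟨y, hy⟩
  refine ⟨?_, ?_⟩
  · rw [← hfF]
    exact ssl_isUnif P₀ hR ht f a ha0 (by rw [hfF]; exact ha) hdiv
  · intro V hVp hVc hVf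
    apply ssl_place_eq P₀ hR ht f a ha0 (by rw [hfF]; exact ha) hdiv hVp hVc
    have hprime : sslCentre t 𝔫 hVc = RingHom.ker (sslEv hR) := by
      apply ssl_cross_prime (sslConst t 𝔫) (sslEv hR) hev ϖ hR.unif uO wO ρO hmax κ d hnodeO
        (by rw [hau]; exact ha0) c hc' hcϖ (sslCentre t 𝔫 hVc)
        (ssl_const_not_mem_centre t 𝔫 hVp hVc hR.unif.ne_zero)
      rw [hau, mem_sslCentre]
      exact hVf
    intro x
    rw [← mem_sslCentre t 𝔫 hVc, hprime, sslEv_ker, mem_sslCentre]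

/-- (LOC) at a smooth point. -/
theorem ss_loc_smooth (ht : Transcendental L t) [FiniteDimensional L⟮t⟯ F]
    (hR : SsPoint L ϖ t 𝔫 R) (z : F) (hgen : SsGen ϖ t 𝔫 z 0)
    (a : A) (ha : R.valuation (z - algebraMap A F a) < 1) :
    S18IsUnif R (z - algebraMap A F a) ∧
    ∀ V : ValuationSubring F, S18IsPlace L V → SsCentred t 𝔫 V →
      V.valuation (z - algebraMap A F a) < 1 → V = R := by
  obtain ⟨P₀, rfl⟩ := s18r_exists_place t ht R hR.place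
  haveI := ssl_locRing_isNoetherianRing (L := L) t ht 𝔫
  set zO : ↥(ssLocRing t 𝔫) := ⟨z, hgen.1.inLoc⟩ with hzO
  have hmax0 := ssl_max_eq hR.mem hgen
  have hmax : maximalIdeal ↥(ssLocRing t 𝔫) = Ideal.span {sslConst t 𝔫 ϖ, zO} := by
    rw [hmax0]
    apply le_antisymm
    · rw [Ideal.span_le]
      rintro x hx
      simp only [Set.mem_insert_iff, Set.mem_singleton_iff] at hx
      rcases hx with rfl | rfl | rfl
      · exact Ideal.subset_span (Or.inl rfl)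
      · exact Ideal.subset_span (Or.inr rfl)
      · exact Ideal.zero_mem _
    · apply Ideal.span_mono
      intro x hx
      simp only [Set.mem_insert_iff, Set.mem_singleton_iff] at hx ⊢
      rcases hx with rfl | rfl
      · exact Or.inl rfl
      · exact Or.inr (Or.inl rfl)
  have hev : ∀ a, sslEv hR (sslConst t 𝔫 a) = a := sslEv_const hR
  have haz : sslEv hR zO = a := sslEv_eq hR ha
  -- `a` is a non-unit
  have hzϖ : ϖ ∣ sslEv hR zO := by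
    have hzm : zO ∈ maximalIdeal ↥(ssLocRing t 𝔫) := (ssl_mem_maximalIdeal t 𝔫 _).mpr hgen.1
    have h1 : ¬ IsUnit (sslEv hR zO) := by
      intro h
      have h2 : sslConst t 𝔫 (sslEv hR zO) ∈ maximalIdeal ↥(ssLocRing t 𝔫) := by
        have := (maximalIdeal ↥(ssLocRing t 𝔫)).sub_mem hzm
          (ssl_ker_le_max (sslEv hR) (ssl_sub_mem_ker (sslConst t 𝔫) (sslEv hR) hev zO))
        rwa [sub_sub_cancel] at this
      exact (mem_maximalIdeal _).mp h2 (h.map (sslConst t 𝔫))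
    have h3 : sslEv hR zO ∈ maximalIdeal A := (mem_maximalIdeal _).mpr h1
    rw [hR.unif.maximalIdeal_eq] at h3
    exact Ideal.mem_span_singleton.mp h3
  have hker := ssl_ker_single (sslConst t 𝔫) (sslEv hR) hev ϖ hR.unif.ne_zero zO hmax hzϖ
  rw [haz] at hker
  set f : ↥(ssLocRing t 𝔫) := zO - sslConst t 𝔫 a with hf
  have hfF : (f : F) = z - algebraMap A F a := rfl
  have hdiv : ∀ x : ↥(ssLocRing t 𝔫), P₀.toValuationSubring.valuation (x : F) < 1 →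
      ∃ y : ↥(ssLocRing t 𝔫), sslConst t 𝔫 1 * x = f * y := by
    intro x hx
    have hxk : x ∈ RingHom.ker (sslEv hR) := by
      rw [sslEv_ker, mem_sslCentre]; exact hx
    rw [hker] at hxk
    obtain ⟨y, hy⟩ := Ideal.mem_span_singleton'.mp hxk
    exact ⟨y, by rw [map_one, one_mul, ← hy, mul_comm]⟩
  refine ⟨?_, ?_⟩
  · rw [← hfF]
    exact ssl_isUnif P₀ hR ht f 1 one_ne_zero (by rw [hfF]; exact ha) hdiv
  · intro V hVp hVc hVf
    apply ssl_place_eq P₀ hR ht f 1 one_ne_zero (by rw [hfF]; exact ha) hdiv hVp hVc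
    have hprime : sslCentre t 𝔫 hVc = RingHom.ker (sslEv hR) := by
      apply ssl_smooth_prime (sslConst t 𝔫) (sslEv hR) hev ϖ hR.unif zO hmax hzϖ
        (sslCentre t 𝔫 hVc) (ssl_const_not_mem_centre t 𝔫 hVp hVc hR.unif.ne_zero)
      rw [haz, mem_sslCentre]
      exact hVf
    intro x
    rw [← mem_sslCentre t 𝔫 hVc, hprime, sslEv_ker, mem_sslCentre]

end Loc

section Deep

variable {t : F} {𝔫 : Ideal ↥(s18tInt A t)} [h𝔫 : 𝔫.IsPrime] {R : ValuationSubring F}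

/-- the restriction to `A` of an endomorphism of `F` preserving `A` -/
def sslResA (hinj : Function.Injective (algebraMap A F)) (σ : F →+* F)
    (hσA : ∀ a : A, ∃ a' : A, σ (algebraMap A F a) = algebraMap A F a') : A →+* A where
  toFun a := Classical.choose (hσA a)
  map_one' := hinj ((Classical.choose_spec (hσA 1)).symm.trans (by rw [map_one, map_one]))
  map_mul' a b := hinj ((Classical.choose_spec (hσA (a * b))).symm.trans (by
    simp only [map_mul]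
    exact congrArg₂ (· * ·) (Classical.choose_spec (hσA a)) (Classical.choose_spec (hσA b))))
  map_zero' := hinj ((Classical.choose_spec (hσA 0)).symm.trans (by rw [map_zero, map_zero]))
  map_add' a b := hinj ((Classical.choose_spec (hσA (a + b))).symm.trans (by
    simp only [map_add]
    exact congrArg₂ (· + ·) (Classical.choose_spec (hσA a)) (Classical.choose_spec (hσA b))))

theorem sslResA_spec (hinj : Function.Injective (algebraMap A F)) (σ : F →+* F)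
    (hσA : ∀ a : A, ∃ a' : A, σ (algebraMap A F a) = algebraMap A F a') (a : A) :
    σ (algebraMap A F a) = algebraMap A F (sslResA hinj σ hσA a) :=
  Classical.choose_spec (hσA a)

/-- the restriction to `P_𝔫` of an endomorphism of `F` preserving `P` and `P ∖ 𝔫` -/
def sslResO (σ : F →+* F) (hσP : ∀ x ∈ s18tInt A t, σ x ∈ s18tInt A t)
    (hσ𝔫 : ∀ p : ↥(s18tInt A t), p ∉ 𝔫 → (⟨σ p, hσP p p.2⟩ : ↥(s18tInt A t)) ∉ 𝔫) :
    ↥(ssLocRing t 𝔫) →+* ↥(ssLocRing t 𝔫) :=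
  (σ.comp (ssLocRing t 𝔫).subtype).codRestrict (ssLocRing t 𝔫) (by
    rintro ⟨x, s, hs, hx⟩
    refine ⟨⟨σ s, hσP s s.2⟩, hσ𝔫 s hs, ?_⟩
    show σ (s : F) * σ x ∈ s18tInt A t
    rw [← map_mul]
    exact hσP _ hx)

theorem sslResO_coe (σ : F →+* F) (hσP : ∀ x ∈ s18tInt A t, σ x ∈ s18tInt A t)
    (hσ𝔫 : ∀ p : ↥(s18tInt A t), p ∉ 𝔫 → (⟨σ p, hσP p p.2⟩ : ↥(s18tInt A t)) ∉ 𝔫)
    (x : ↥(ssLocRing t 𝔫)) : ((sslResO σ hσP hσ𝔫 x : ↥(ssLocRing t 𝔫)) : F) = σ (x : F) := rfl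

/-- (DEEP) a place which is deep for all `n` has a `σ`-stable centre on `P_𝔫`. -/
theorem ss_deep (hR : SsPoint L ϖ t 𝔫 R) (u w : ℕ → F) (hgen : ∀ n, SsGen ϖ t 𝔫 (u n) (w n))
    (hdeep : ∀ n, ∃ a b : A, R.valuation (u n - algebraMap A F (ϖ ^ n * a)) < 1 ∧
      R.valuation (w n - algebraMap A F (ϖ ^ n * b)) < 1)
    (σ : F →+* F) (hσA : ∀ a : A, ∃ a' : A, σ (algebraMap A F a) = algebraMap A F a')
    (hσϖ : ∃ a' : A, σ (algebraMap A F ϖ) = algebraMap A F (ϖ * a'))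
    (hσP : ∀ x ∈ s18tInt A t, σ x ∈ s18tInt A t)
    (hσ𝔫 : ∀ p : ↥(s18tInt A t), p ∉ 𝔫 → (⟨σ p, hσP p p.2⟩ : ↥(s18tInt A t)) ∉ 𝔫)
    (hσu : ∀ n, σ (u n) = u n) (hσw : ∀ n, σ (w n) = w n) :
    ∀ x : F, SsInLoc t 𝔫 x → R.valuation x < 1 → R.valuation (σ x) < 1 := by
  have hinj : Function.Injective (algebraMap A F) := ssl_algebraMap_injective A L F
  set σA := sslResA hinj σ hσA with hσAdef
  set σO := sslResO (𝔫 := 𝔫) σ hσP hσ𝔫 with hσOdef
  have hev : ∀ a, sslEv hR (sslConst t 𝔫 a) = a := sslEv_const hR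
  have hσι : ∀ a, σO (sslConst t 𝔫 a) = sslConst t 𝔫 (σA a) := fun a =>
    Subtype.ext (sslResA_spec hinj σ hσA a)
  have hσϖ' : ϖ ∣ σA ϖ := by
    obtain ⟨a', ha'⟩ := hσϖ
    refine ⟨a', hinj ?_⟩
    rw [← sslResA_spec hinj σ hσA ϖ, ha']
  have key : ∀ x : ↥(ssLocRing t 𝔫), sslEv hR x = 0 → sslEv hR (σO x) = 0 := fun x hx =>
    ssl_deep (sslConst t 𝔫) (sslEv hR) hev ϖ hR.unif
    (fun n => (⟨u n, (hgen n).1.inLoc⟩ : ↥(ssLocRing t 𝔫)))
    (fun n => (⟨w n, (hgen n).2.1.inLoc⟩ : ↥(ssLocRing t 𝔫)))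
    (fun n => ssl_max_eq hR.mem (hgen n))
    (fun n => by
      obtain ⟨a, b, ha, hb⟩ := hdeep n
      have : sslEv hR (⟨u n, (hgen n).1.inLoc⟩ : ↥(ssLocRing t 𝔫)) = ϖ ^ n * a := sslEv_eq hR ha
      rw [this]
      exact Dvd.intro _ rfl)
    (fun n => by
      obtain ⟨a, b, ha, hb⟩ := hdeep n
      have : sslEv hR (⟨w n, (hgen n).2.1.inLoc⟩ : ↥(ssLocRing t 𝔫)) = ϖ ^ n * b := sslEv_eq hR hb
      rw [this]
      exact Dvd.intro _ rfl)
    σO σA hσι hσϖ' (fun n => Subtype.ext (hσu n)) (fun n => Subtype.ext (hσw n)) hx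
  intro x hx hxR
  have h1 : sslEv hR (⟨x, hx⟩ : ↥(ssLocRing t 𝔫)) = 0 := by
    have : (⟨x, hx⟩ : ↥(ssLocRing t 𝔫)) ∈ RingHom.ker (sslEv hR) := by
      rw [sslEv_ker, mem_sslCentre]; exact hxR
    exact this
  have h2 := key _ h1
  have h3 : σO (⟨x, hx⟩ : ↥(ssLocRing t 𝔫)) ∈ RingHom.ker (sslEv hR) := h2
  rw [sslEv_ker, mem_sslCentre] at h3
  exact h3

end Deep

section Main

variable {t : F} {𝔫 : Ideal ↥(s18tInt A t)} [h𝔫 : 𝔫.IsPrime] {R : ValuationSubring F}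

/-- THE LOCAL DICHOTOMY AT A CROSSING POINT : node equations `u_n w_n = κ_n - d_n ρ_n` at every
precision (`ϖ^n ∣ d_n`), generators `(ϖ, u_n, w_n)` of `𝔫 P_𝔫`.  A rational place `R` centred in `𝔫`
either has a centre on `P_𝔫` which is stable under every endomorphism `σ ∈ G` of `F` preserving `A`,
`P`, `P ∖ 𝔫` and fixing all `u_n, w_n` (DEEP), or is cut out by `c - a` with `c = u_n` or `c = w_n`
and `a ∈ A` : `c - a` is a uniformiser at `R` and a unit at every other place centred in `𝔫`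
(LOC). -/
theorem ss_loc_cross_main (ht : Transcendental L t) [FiniteDimensional L⟮t⟯ F]
    (hR : SsPoint L ϖ t 𝔫 R) (u w ρ : ℕ → F) (κ d : ℕ → A)
    (hgen : ∀ n, SsGen ϖ t 𝔫 (u n) (w n)) (hρ : ∀ n, SsInLoc t 𝔫 (ρ n))
    (hnode : ∀ n, u n * w n = algebraMap A F (κ n) - algebraMap A F (d n) * ρ n)
    (hd : ∀ n, ϖ ^ n ∣ d n) (G : Set (F →+* F))
    (hσA : ∀ σ ∈ G, ∀ a : A, ∃ a' : A, σ (algebraMap A F a) = algebraMap A F a')
    (hσϖ : ∀ σ ∈ G, ∃ a' : A, σ (algebraMap A F ϖ) = algebraMap A F (ϖ * a'))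
    (hσP : ∀ σ ∈ G, ∀ x ∈ s18tInt A t, σ x ∈ s18tInt A t)
    (hσ𝔫 : ∀ σ ∈ G, ∀ p : ↥(s18tInt A t), p ∉ 𝔫 → ∀ h : σ (p : F) ∈ s18tInt A t,
      (⟨σ p, h⟩ : ↥(s18tInt A t)) ∉ 𝔫)
    (hσu : ∀ σ ∈ G, ∀ n, σ (u n) = u n) (hσw : ∀ σ ∈ G, ∀ n, σ (w n) = w n) :
    (∀ σ ∈ G, ∀ x : F, SsInLoc t 𝔫 x → R.valuation x < 1 → R.valuation (σ x) < 1) ∨
    ∃ (c : F) (a : A), (∃ n, c = u n ∨ c = w n) ∧ S18IsUnif R (c - algebraMap A F a) ∧
      ∀ V : ValuationSubring F, S18IsPlace L V → SsCentred t 𝔫 V →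
        V.valuation (c - algebraMap A F a) < 1 → V = R := by
  -- the values `a_n = u_n(R)`, `b_n = w_n(R)`
  set uO : ℕ → ↥(ssLocRing t 𝔫) := fun n => ⟨u n, (hgen n).1.inLoc⟩ with huO
  set wO : ℕ → ↥(ssLocRing t 𝔫) := fun n => ⟨w n, (hgen n).2.1.inLoc⟩ with hwO
  have hau : ∀ n, R.valuation (u n - algebraMap A F (sslEv hR (uO n))) < 1 :=
    fun n => sslEv_spec hR (uO n)
  have haw : ∀ n, R.valuation (w n - algebraMap A F (sslEv hR (wO n))) < 1 :=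
    fun n => sslEv_spec hR (wO n)
  -- shallow w.r.t. `u`
  by_cases hsu : ∃ n, sslEv hR (uO n) ≠ 0 ∧ ∃ c : A, d n = sslEv hR (uO n) * c ∧ ϖ ∣ c
  · obtain ⟨n, ha0, c, hc, hcϖ⟩ := hsu
    right
    refine ⟨u n, sslEv hR (uO n), ⟨n, Or.inl rfl⟩, ?_⟩
    exact ss_loc_cross ht hR (u n) (w n) (ρ n) (hgen n) (hρ n) (κ n) (d n) (hnode n) _ (hau n) ha0
      c hc hcϖ
  -- shallow w.r.t. `w`
  by_cases hsw : ∃ n, sslEv hR (wO n) ≠ 0 ∧ ∃ c : A, d n = sslEv hR (wO n) * c ∧ ϖ ∣ c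
  · obtain ⟨n, hb0, c, hc, hcϖ⟩ := hsw
    right
    refine ⟨w n, sslEv hR (wO n), ⟨n, Or.inr rfl⟩, ?_⟩
    exact ss_loc_cross ht hR (w n) (u n) (ρ n) (hgen n).symm (hρ n) (κ n) (d n)
      (by rw [mul_comm]; exact hnode n) _ (haw n) hb0 c hc hcϖ
  -- deep
  left
  push Not at hsu hsw
  -- in a DVR : `a = 0`, or `a` strictly divides `d`, or `d ∣ a`
  have hdvr : ∀ (a d' : A), (a ≠ 0 → ∀ c : A, d' = a * c → ¬ ϖ ∣ c) → d' ∣ a := by
    intro a d' h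
    by_cases ha0 : a = 0
    · rw [ha0]; exact dvd_zero _
    rcases ValuationRing.dvd_total a d' with ⟨c, hc⟩ | h'
    · have hcu : IsUnit c := by
        by_contra hcu
        have : c ∈ maximalIdeal A := (mem_maximalIdeal _).mpr hcu
        rw [hR.unif.maximalIdeal_eq] at this
        exact h ha0 c hc (Ideal.mem_span_singleton.mp this)
      obtain ⟨c', hc'⟩ := hcu.exists_right_inv
      exact ⟨c', by rw [hc, mul_assoc, hc', mul_one]⟩
    · exact h'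
  intro σ hσ
  refine ss_deep hR u w hgen (fun n => ?_) σ (hσA σ hσ) (hσϖ σ hσ) (hσP σ hσ)
    (fun p hp => hσ𝔫 σ hσ p hp _) (hσu σ hσ) (hσw σ hσ)
  obtain ⟨a, ha⟩ := (hd n).trans (hdvr _ (d n) (hsu n))
  obtain ⟨b, hb⟩ := (hd n).trans (hdvr _ (d n) (hsw n))
  exact ⟨a, b, by rw [← ha]; exact hau n, by rw [← hb]; exact haw n⟩

end Main

end Fermat.Agent.SS
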