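import Mathlib
import Fermat.Agent.SS.NF.Defs
import Fermat.Agent.SS.Loc.Main
import Fermat.Agent.SS.Loc.Centre

/-!
# Program S, row SS-LOC : germs ⟹ `SsLocAt` (LOC + DEEP), in the shape of helper12's interface
`SS/NF/Spec.lean`

Germs with FRACTION coordinates (`z, u_m, w_m, ρ_m : F` in `P_𝔫`, `SsInLoc` / `SsInMax` / `SsGen` of
`SS/Loc`):

* `SsGermSmoothF ϖ t G 𝔫` : `𝔫 P_𝔫 = (ϖ, z)` (no invariance of `z` needed);
* `SsGermCrossF ϖ t G 𝔫` : for every `m` : `𝔫 P_𝔫 = (ϖ, u, w)`, `u w = κ - d ρ`, `κ, d ∈ A`, `ϖ^m ∣ d`,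
  `ρ ∈ P_𝔫`, `u, w` fixed by `G`;
* `ssnf_locAt_of_germF` : a germ at `𝔫` gives `SsLocAt t σ τ 𝔫` for `σ, τ ∈ G`.
-/

set_option autoImplicit false
set_option linter.unusedSectionVars false
set_option linter.unusedVariables false
set_option linter.style.haveILetI false

noncomputable section

namespace Fermat.Agent.SS

open Polynomial IntermediateField Fermat.Agent.S18 IsLocalRing AlgebraicCurve
open scoped Pointwise

universe u

variable {A : Type*} [CommRing A] [IsDomain A] [IsDiscreteValuationRing A] [CharZero A]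
variable {L : Type*} [Field L] [Algebra A L] [IsFractionRing A L]
variable {F : Type u} [Field F] [Algebra A F] [Algebra L F] [IsScalarTower A L F]
variable {ϖ : A}

/-- smooth germ with a fraction coordinate : `𝔫 P_𝔫 = (ϖ, z)`, `z ∈ 𝔫 P_𝔫` (no invariance under
`G` needed; `G` is kept as an argument for uniformity). -/
def SsGermSmoothF (ϖ : A) (t : F) (G : Subgroup (SemilinearAut L F))
    (𝔫 : Ideal ↥(s18tInt A t)) : Prop :=
  ∃ z : F, SsGen ϖ t 𝔫 z 0

/-- crossing germ with fraction coordinates : for every precision `m` there are `G`-invariant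
`u, w ∈ 𝔫 P_𝔫` with `𝔫 P_𝔫 = (ϖ, u, w)` and `u w = κ - d ρ`, `κ, d ∈ A`, `ϖ^m ∣ d`, `ρ ∈ P_𝔫`. -/
def SsGermCrossF (ϖ : A) (t : F) (G : Subgroup (SemilinearAut L F))
    (𝔫 : Ideal ↥(s18tInt A t)) : Prop :=
  ∀ m : ℕ, ∃ (u w ρ : F) (κ d : A), (∀ γ ∈ G, γ • u = u) ∧ (∀ γ ∈ G, γ • w = w) ∧
    SsGen ϖ t 𝔫 u w ∧ SsInLoc t 𝔫 ρ ∧
    u * w = algebraMap A F κ - algebraMap A F d * ρ ∧ ϖ ^ m ∣ d

section Dict

variable (R : Place L F)

/-- a Prelude place is a weak place -/
theorem ssl_place_isPlace : S18IsPlace L R.toValuationSubring := ⟨R.ne_top', R.algebraMap_mem'⟩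

/-- a uniformiser has order one -/
theorem ssl_ord_of_isUnif {f : F} (hf : S18IsUnif R.toValuationSubring f) : R.ord f = 1 := by
  obtain ⟨π, hdisc, hordπ, hval⟩ := s18r_place_disc R
  have hπ0 : π ≠ 0 := hdisc.1
  have h1 : R.toValuationSubring.valuation π ≤ R.toValuationSubring.valuation f :=
    hf.2 π hdisc.2.1.1
  have h2 : R.toValuationSubring.valuation f ≤ R.toValuationSubring.valuation π :=
    hdisc.2.1.2 f hf.1
  have hf0 : f ≠ 0 := by
    rintro rfl
    rw [map_zero] at h1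
    exact (Valuation.ne_zero_iff _).mpr hπ0 (le_antisymm h1 zero_le)
  have h3 : R.toValuationSubring.valuation (f / π) = 1 := by
    rw [map_div₀, le_antisymm h2 h1]
    exact div_self ((Valuation.ne_zero_iff _).mpr hπ0)
  have h4 : f = π * (f / π) := by field_simp
  rw [h4, R.ord_mul hπ0 (div_ne_zero hf0 hπ0), hordπ, ssl_ord_of_val_one R h3, add_zero]

end Dict

section Main

variable {t : F} {𝔫 : Ideal ↥(s18tInt A t)}

/-- `SsPoint` from the Prelude-style hypotheses -/
theorem ssl_point_of_place (hϖ : Irreducible ϖ) (hϖ𝔫 : sskPi ϖ t ∈ 𝔫) (R : Place L F)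
    (hRr : SsRational R) (hRc : SsCentredAt t 𝔫 R) : SsPoint L ϖ t 𝔫 R.toValuationSubring where
  place := ssl_place_isPlace R
  centred := ⟨hRc.1, fun p hp => hRc.2 hp⟩
  rational := fun x hx => hRr x hx
  unif := hϖ
  mem := hϖ𝔫

/-- the first alternative of `SsLocAt` from a function cutting out `R` -/
theorem ssl_locAt_left [𝔫.IsPrime] (R : Place L F) {f : F} (hfO : SsInLoc t 𝔫 f)
    (hunif : S18IsUnif R.toValuationSubring f)
    (huniq : ∀ V : ValuationSubring F, S18IsPlace L V → SsCentred t 𝔫 V → V.valuation f < 1 →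
      V = R.toValuationSubring) :
    ∃ f : F, f ≠ 0 ∧ R.ord f = 1 ∧
      ∀ R' : Place L F, SsCentredAt t 𝔫 R' → R' ≠ R → R'.ord f = 0 := by
  have hord := ssl_ord_of_isUnif R hunif
  have hf0 : f ≠ 0 := by
    rintro rfl
    rw [Place.ord_zero] at hord
    exact zero_ne_one hord
  refine ⟨f, hf0, hord, fun R' hR'c hne => ?_⟩
  have hR'c' : SsCentred t 𝔫 R'.toValuationSubring := ⟨hR'c.1, fun p hp => hR'c.2 hp⟩
  apply ssl_ord_of_val_one
  apply le_antisymm
    ((R'.toValuationSubring.valuation_le_one_iff _).mpr (ssl_locRing_le t 𝔫 hR'c' hfO))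
  by_contra h
  push Not at h
  exact hne (Place.ext (huniq _ (ssl_place_isPlace R') hR'c' h))

/-- membership in the non-units of a translate -/
theorem ssl_val_smul_lt (γ : SemilinearAut L F) (V : ValuationSubring F) (x : F) :
    (γ • V).valuation x < 1 ↔ V.valuation (γ⁻¹ • x) < 1 := by
  show x ∈ (γ • V).nonunits ↔ γ⁻¹ • x ∈ V.nonunits
  rw [ValuationSubring.mem_nonunits_iff_or, ValuationSubring.mem_nonunits_iff_or,
    ValuationSubring.mem_pointwise_smul_iff_inv_smul_mem, smul_inv'', smul_eq_zero_iff_eq]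

/-- (LOC) + (DEEP) : a germ (with fraction coordinates) at `𝔫` gives the local structure
`SsLocAt`. -/
theorem ssnf_locAt_of_germF (hϖ : Irreducible ϖ) (t : F) (ht : Transcendental L t)
    [FiniteDimensional L⟮t⟯ F]
    (G : Subgroup (SemilinearAut L F)) (hG : ∀ γ ∈ G, SsInertial ϖ t γ)
    (hbase : ∀ γ ∈ G, ∀ a : A, ∃ a' : A, γ • algebraMap A F a = algebraMap A F a')
    (σ τ : SemilinearAut L F) (hσ : σ ∈ G) (hτ : τ ∈ G)
    (𝔫 : Ideal ↥(s18tInt A t)) (h𝔫 : 𝔫.IsMaximal) (hϖ𝔫 : sskPi ϖ t ∈ 𝔫)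
    (h : SsGermSmoothF ϖ t G 𝔫 ∨ SsGermCrossF ϖ t G 𝔫) :
    SsLocAt t σ τ 𝔫 := by
  haveI : 𝔫.IsPrime := h𝔫.isPrime
  intro R hRr hRc
  have hR := ssl_point_of_place hϖ hϖ𝔫 R hRr hRc
  have hinj : Function.Injective (algebraMap A F) := ssl_algebraMap_injective A L F
  rcases h with ⟨z, hgen⟩ | hcross
  · -- smooth point
    left
    set a := sslEv hR (⟨z, hgen.1.inLoc⟩ : ↥(ssLocRing t 𝔫)) with ha
    have hspec := sslEv_spec hR (⟨z, hgen.1.inLoc⟩ : ↥(ssLocRing t 𝔫))
    obtain ⟨hunif, huniq⟩ := ss_loc_smooth ht hR z hgen a hspec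
    exact ssl_locAt_left R
      ((ssLocRing t 𝔫).sub_mem hgen.1.inLoc
        (ssl_int_le_locRing t 𝔫 (s18tc_algebraMap_mem_int t a))) hunif huniq
  · -- crossing point
    choose u w ρ κ d hu hw hgen hρ hnode hd using hcross
    -- the group `G` as a set of ring endomorphisms of `F`
    set G' : Set (F →+* F) :=
      (fun γ : SemilinearAut L F => ((SemilinearAut.toRingAut γ : F ≃+* F) : F →+* F)) ''
        (G : Set (SemilinearAut L F)) with hG'
    have hmemP : ∀ γ ∈ G, ∀ x ∈ s18tInt A t, γ • x ∈ s18tInt A t := by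
      intro γ hγ x hx
      obtain ⟨p, hp, hxp⟩ := hG γ hγ x hx
      have : γ • x = x + algebraMap A F ϖ * p := by rw [← hxp]; ring
      rw [this]
      exact Subring.add_mem _ hx (Subring.mul_mem _ (s18tc_algebraMap_mem_int t ϖ) hp)
    have hdich := ss_loc_cross_main ht hR u w ρ κ d hgen hρ hnode hd G'
      (by
        rintro _ ⟨γ, hγ, rfl⟩ a
        exact hbase γ hγ a)
      (by
        rintro _ ⟨γ, hγ, rfl⟩
        obtain ⟨a'', ha''⟩ := hbase γ hγ ϖ
        have hdvd : ϖ ∣ a'' := by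
          by_contra hnd
          have hunit : IsUnit a'' := by
            by_contra hnu
            have : a'' ∈ maximalIdeal A := (mem_maximalIdeal _).mpr hnu
            rw [hϖ.maximalIdeal_eq] at this
            exact hnd (Ideal.mem_span_singleton.mp this)
          obtain ⟨b, hb⟩ := hunit.exists_right_inv
          obtain ⟨b', hb'⟩ := hbase γ⁻¹ (G.inv_mem hγ) b
          have h1 : γ⁻¹ • (algebraMap A F a'' * algebraMap A F b) = 1 := by
            rw [← map_mul, hb, map_one, smul_one]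
          rw [smul_mul', ← ha'', inv_smul_smul, hb', ← map_mul] at h1
          have h2 : ϖ * b' = 1 := hinj (by rw [h1, map_one])
          exact hϖ.not_isUnit (IsUnit.of_mul_eq_one _ h2)
        obtain ⟨a', rfl⟩ := hdvd
        exact ⟨a', ha''⟩)
      (by
        rintro _ ⟨γ, hγ, rfl⟩ x hx
        exact hmemP γ hγ x hx)
      (by
        rintro _ ⟨γ, hγ, rfl⟩ p hp hmem hcon
        apply hp
        obtain ⟨p', hp', hpp'⟩ := hG γ hγ (p : F) p.2
        have h3 : p = (⟨γ • (p : F), hmem⟩ : ↥(s18tInt A t)) - sskPi ϖ t * ⟨p', hp'⟩ := by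
          apply Subtype.ext
          show (p : F) = γ • (p : F) - algebraMap A F ϖ * p'
          rw [← hpp']; ring
        rw [h3]
        exact 𝔫.sub_mem hcon (𝔫.mul_mem_right _ hϖ𝔫))
      (by
        rintro _ ⟨γ, hγ, rfl⟩ n
        exact hu n γ hγ)
      (by
        rintro _ ⟨γ, hγ, rfl⟩ n
        exact hw n γ hγ)
    rcases hdich with hdeep | ⟨c, a, ⟨n, hcn⟩, hunif, huniq⟩
    · -- deep : `R` is fixed by every `γ ∈ G`
      right
      have hfix : ∀ γ ∈ G, γ • R = R := by
        intro γ hγ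
        apply Place.ext
        rw [SemilinearAut.smul_toValuationSubring]
        have hγi : γ⁻¹ ∈ G := G.inv_mem hγ
        apply ssl_place_eq_of_centre (A := A) t ht
          (by rw [← SemilinearAut.smul_toValuationSubring]; exact ssl_place_isPlace (γ • R))
          (ssl_place_isPlace R)
        · intro x hx
          show x ∈ γ • R.toValuationSubring
          rw [ValuationSubring.mem_pointwise_smul_iff_inv_smul_mem]
          exact hRc.1 (hmemP γ⁻¹ hγi x hx)
        · exact hRc.1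
        · intro p
          rw [ssl_val_smul_lt]
          constructor
          · intro hlt
            have := hdeep _ ⟨γ, hγ, rfl⟩ (γ⁻¹ • (p : F))
              (ssl_int_le_locRing t 𝔫 (hmemP γ⁻¹ hγi _ p.2)) hlt
            have e : ((SemilinearAut.toRingAut γ : F ≃+* F) : F →+* F) (γ⁻¹ • (p : F)) = (p : F) := by
              show γ • (γ⁻¹ • (p : F)) = (p : F)
              rw [smul_inv_smul]
            rwa [e] at this
          · intro hlt
            exact hdeep _ ⟨γ⁻¹, hγi, rfl⟩ (p : F) (ssl_int_le_locRing t 𝔫 p.2) hlt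
      exact ⟨hfix σ hσ, hfix τ hτ⟩
    · -- shallow
      left
      have hcO : SsInLoc t 𝔫 c := by
        rcases hcn with rfl | rfl
        · exact (hgen n).1.inLoc
        · exact (hgen n).2.1.inLoc
      exact ssl_locAt_left R
        ((ssLocRing t 𝔫).sub_mem hcO (ssl_int_le_locRing t 𝔫 (s18tc_algebraMap_mem_int t a)))
        hunif huniq

end Main

end Fermat.Agent.SS
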