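import Mathlib
import Fermat.Agent.SS.NF.Defs
import Fermat.Agent.SS.Loc.Germ

/-!
# Program S, row SS-LOC : `ssnf_locAt_of_germ`, VERBATIM against the germ predicates of
`SS/NF/Defs.lean` (`SsGermSmooth`, `SsGermCross`, with `z, u, w ∈ 𝔫 P_𝔫` : `SsnfInMax`)

Conversion of the germs of `SS/NF/Defs.lean` (coefficients in `P`, a common denominator) into the
fraction germs `SsGermSmoothF`, `SsGermCrossF` of `SS/Loc/Germ.lean`, and the row.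
-/

set_option autoImplicit false
set_option linter.unusedSectionVars false
set_option linter.unusedVariables false

noncomputable section

namespace Fermat.Agent.SS

open Polynomial IntermediateField Fermat.Agent.S18 IsLocalRing AlgebraicCurve

universe u

variable {A : Type*} [CommRing A] [IsDomain A] [IsDiscreteValuationRing A] [CharZero A]
variable {L : Type*} [Field L] [Algebra A L] [IsFractionRing A L]
variable {F : Type u} [Field F] [Algebra A F] [Algebra L F] [IsScalarTower A L F]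
variable {ϖ : A}

theorem ssnfInLoc_iff {t : F} {𝔫 : Ideal ↥(s18tInt A t)} {x : F} :
    SsnfInLoc t 𝔫 x ↔ SsInLoc t 𝔫 x := Iff.rfl

theorem ssnfInMax_iff {t : F} {𝔫 : Ideal ↥(s18tInt A t)} {x : F} :
    SsnfInMax t 𝔫 x ↔ SsInMax t 𝔫 x := Iff.rfl

/-- a quotient `a / s` with `a ∈ P`, `s ∈ P ∖ 𝔫` lies in `P_𝔫` -/
theorem ssl_div_inLoc {t : F} {𝔫 : Ideal ↥(s18tInt A t)} (a s : ↥(s18tInt A t)) (hs : s ∉ 𝔫) :
    SsInLoc t 𝔫 ((a : F) / (s : F)) := by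
  have hs0 : (s : F) ≠ 0 := fun h => hs (by
    have : s = 0 := Subtype.ext h
    rw [this]; exact 𝔫.zero_mem)
  exact ⟨s, hs, by rw [mul_div_cancel₀ _ hs0]; exact a.2⟩

theorem ssl_zero_inMax {t : F} {𝔫 : Ideal ↥(s18tInt A t)} (h𝔫 : 𝔫 ≠ ⊤) : SsInMax t 𝔫 (0 : F) :=
  ⟨1, fun h => h𝔫 ((Ideal.eq_top_iff_one _).mpr h), 0, 𝔫.zero_mem, by simp⟩

/-- smooth germ of `SS/NF/Defs.lean` ⟹ fraction germ -/
theorem ssl_germSmoothF_of {t : F} {G : Subgroup (SemilinearAut L F)} {𝔫 : Ideal ↥(s18tInt A t)}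
    (h𝔫 : 𝔫 ≠ ⊤) (h : SsGermSmooth ϖ t G 𝔫) : SsGermSmoothF ϖ t G 𝔫 := by
  obtain ⟨z, hz, hgen⟩ := h
  refine ⟨z, hz, ssl_zero_inMax h𝔫, fun p hp => ?_⟩
  obtain ⟨s, hs, a, b, hsp⟩ := hgen p hp
  have hs0 : (s : F) ≠ 0 := fun h => hs (by
    have : s = 0 := Subtype.ext h
    rw [this]; exact 𝔫.zero_mem)
  refine ⟨(a : F) / (s : F), (b : F) / (s : F), 0, ssl_div_inLoc a s hs, ssl_div_inLoc b s hs,
    ssl_inLoc_of_mem h𝔫 (Subring.zero_mem _), ?_⟩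
  field_simp
  rw [mul_comm (p : F) (s : F), hsp]
  ring

/-- crossing germ of `SS/NF/Defs.lean` ⟹ fraction germ -/
theorem ssl_germCrossF_of {t : F} {G : Subgroup (SemilinearAut L F)} {𝔫 : Ideal ↥(s18tInt A t)}
    (h𝔫 : 𝔫 ≠ ⊤) (h : SsGermCross ϖ t G 𝔫) : SsGermCrossF ϖ t G 𝔫 := by
  intro m
  obtain ⟨u, w, hu, hw, huG, hwG, hgen, κ, ρ, hρ, hnode⟩ := h m
  refine ⟨u, w, -ρ, κ, ϖ ^ m, huG, hwG, ⟨hu, hw, fun p hp => ?_⟩, ?_, ?_, dvd_rfl⟩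
  · obtain ⟨s, hs, a, b, c, hsp⟩ := hgen p hp
    have hs0 : (s : F) ≠ 0 := fun h => hs (by
      have : s = 0 := Subtype.ext h
      rw [this]; exact 𝔫.zero_mem)
    refine ⟨(a : F) / (s : F), (b : F) / (s : F), (c : F) / (s : F), ssl_div_inLoc a s hs,
      ssl_div_inLoc b s hs, ssl_div_inLoc c s hs, ?_⟩
    field_simp
    linear_combination hsp
  · obtain ⟨s, hs, hsρ⟩ := hρ
    exact ⟨s, hs, by rw [mul_neg]; exact Subring.neg_mem _ hsρ⟩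
  · rw [hnode, map_pow]; ring

/-- (LOC) + (DEEP) : a germ at `𝔫` gives the local structure `SsLocAt`.  [row SS-LOC of
`SS/NF/Spec.lean`] -/
theorem ssnf_locAt_of_germ (hϖ : Irreducible ϖ) (t : F) (ht : Transcendental L t)
    [FiniteDimensional L⟮t⟯ F]
    (G : Subgroup (SemilinearAut L F)) (hG : ∀ γ ∈ G, SsInertial ϖ t γ)
    (hbase : ∀ γ ∈ G, ∀ a : A, ∃ a' : A, γ • algebraMap A F a = algebraMap A F a')
    (σ τ : SemilinearAut L F) (hσ : σ ∈ G) (hτ : τ ∈ G)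
    (𝔫 : Ideal ↥(s18tInt A t)) (h𝔫 : 𝔫.IsMaximal) (hϖ𝔫 : sskPi ϖ t ∈ 𝔫)
    (h : SsGermSmooth ϖ t G 𝔫 ∨ SsGermCross ϖ t G 𝔫) :
    SsLocAt t σ τ 𝔫 :=
  ssnf_locAt_of_germF hϖ t ht G hG hbase σ τ hσ hτ 𝔫 h𝔫 hϖ𝔫
    (h.imp (ssl_germSmoothF_of h𝔫.ne_top) (ssl_germCrossF_of h𝔫.ne_top))

end Fermat.Agent.SS
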